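import Fermat.Agent.Reduction.Flat.Main
import Fermat.Agent.Tate.Rep
import Mathlib.NumberTheory.Padics.RingHoms

/-!
# The Tate module is flat at primes of good reduction
-/

set_option autoImplicit false

noncomputable section

namespace FLTAgent.Reduction.Flat

open WeierstrassCurve FLTAgent.Tate Matrix
open scoped WeierstrassCurve.Affine

local notation "Γℚ" => AlgebraicClosure ℚ ≃ₐ[ℚ] AlgebraicClosure ℚ

variable {W : WeierstrassCurve ℤ} (hΔ : W.Δ ≠ 0) {l : ℕ} [Fact l.Prime] (p : ℕ) [Fact p.Prime]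

/-- Reduction of a vector of the Tate module to a point of order dividing `p ^ n`. -/
def toLev (n : ℕ) : (Fin 2 → ℤ_[p]) →+ lev W p n :=
  ((levBasis hΔ p n).equivFun.symm.toAddMonoidHom).comp
    (AddMonoidHom.compLeft (PadicInt.toZModPow n).toAddMonoidHom (Fin 2))

lemma toLev_eq_zero_iff (n : ℕ) (v : Fin 2 → ℤ_[p]) :
    toLev hΔ p n v = 0 ↔ ∀ i, v i ∈ Ideal.span {(p : ℤ_[p]) ^ n} := by
  rw [toLev, AddMonoidHom.comp_apply]
  exact (LinearEquiv.map_eq_zero_iff _).trans
    (funext_iff.trans (forall_congr' fun i => by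
      rw [← PadicInt.ker_toZModPow, RingHom.mem_ker]; rfl))

lemma toLev_mulVec (n : ℕ) (σ : Γℚ) (v : Fin 2 → ℤ_[p]) :
    toLev hΔ p n (tateMat hΔ p σ *ᵥ v) = levRep W p n σ (toLev hΔ p n v) := by
  set b := levBasis hΔ p n
  have hc : (fun i => PadicInt.toZModPow n ((tateMat hΔ p σ *ᵥ v) i)) =
      levMat hΔ p n σ *ᵥ (fun i => PadicInt.toZModPow n (v i)) := by
    rw [← toZModPow_tateMat]
    exact funext fun i => RingHom.map_mulVec _ _ _ i
  apply b.equivFun.injective
  have h1 : b.equivFun (toLev hΔ p n (tateMat hΔ p σ *ᵥ v)) =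
      fun i => PadicInt.toZModPow n ((tateMat hΔ p σ *ᵥ v) i) :=
    b.equivFun.apply_symm_apply _
  have h2 : b.equivFun (toLev hΔ p n v) = fun i => PadicInt.toZModPow n (v i) :=
    b.equivFun.apply_symm_apply _
  rw [h1, hc, levMat_apply, ← h2, Module.Basis.equivFun_apply, Module.Basis.equivFun_apply,
    LinearMap.toMatrix_mulVec_repr]

lemma mem_ideal_smul_top_iff {R : Type*} [CommRing R] (I : Ideal R) {ι : Type*} [Fintype ι]
    [DecidableEq ι] (v : ι → R) : v ∈ I • (⊤ : Submodule R (ι → R)) ↔ ∀ i, v i ∈ I := by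
  constructor
  · intro hv i
    induction hv using Submodule.smul_induction_on' with
    | smul r hr x _ => exact Ideal.mul_mem_right _ _ hr
    | add x _ y _ hx hy => exact add_mem hx hy
  · intro h
    rw [← Finset.univ_sum_single v]
    refine Submodule.sum_mem _ fun i _ => ?_
    rw [show Pi.single i (v i) = v i • (Pi.single i 1 : ι → R) by
      rw [← Pi.single_smul', smul_eq_mul, mul_one]]
    exact Submodule.smul_mem_smul (h i) Submodule.mem_top

/-- The Tate module is flat at every prime of good reduction. -/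
theorem isFlatAt_tateRep (hgood : W.IsGoodPrimeFor l) : (tateRep hΔ p).IsFlatAt l := by
  refine ⟨Finite.of_equiv _ PadicInt.residueField.symm.toEquiv, fun I hI => ?_⟩
  have hI0 : I ≠ ⊥ := by
    rintro rfl
    exact not_finite_iff_infinite.2 inferInstance
      (Finite.of_equiv _ (RingEquiv.quotientBot ℤ_[p]).toEquiv)
  obtain ⟨n, rfl⟩ := PadicInt.ideal_eq_span_pow_p hI0
  set N := (Ideal.span {(p : ℤ_[p]) ^ n}) • (⊤ : Submodule ℤ_[p] (tateRep hΔ p).V)
  have hN : ∀ v : (tateRep hΔ p).V, v ∈ N ↔ toLev hΔ p n v = 0 := fun v =>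
    (mem_ideal_smul_top_iff (ι := Fin 2) _ v).trans (toLev_eq_zero_iff hΔ p n v).symm
  let ψ : (tateRep hΔ p).V ⧸ N →+ lev W p n :=
    QuotientAddGroup.lift N.toAddSubgroup (toLev hΔ p n) fun v hv => (hN v).1 hv
  have hψ : Function.Injective ψ := (injective_iff_map_eq_zero ψ).2 fun x hx => by
    obtain ⟨v, rfl⟩ := Submodule.Quotient.mk_surjective _ x
    exact (Submodule.Quotient.mk_eq_zero N).2 ((hN v).2 hx)
  have hlev : Finite (lev W p n) :=
    Finite.of_injective _ (levBasis hΔ p n).equivFun.injective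
  have : Finite ((tateRep hΔ p).V ⧸ N) := Finite.of_injective _ hψ
  refine exists_finiteFlat_of_embedding hgood
    (fun σ => (tateRep hΔ p).levelAction _ σ) ((lev W p n).subtype.toAddMonoidHom.comp ψ)
    (Subtype.val_injective.comp hψ) fun σ x => ?_
  obtain ⟨v, rfl⟩ := Submodule.Quotient.mk_surjective _ x
  exact congrArg Subtype.val (toLev_mulVec hΔ p n σ v)

end FLTAgent.Reduction.Flat
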