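import Mathlib.AlgebraicGeometry.EllipticCurve.Projective.Point
import Mathlib.Tactic.LinearCombination
import Mathlib.Tactic.FieldSimp

/-!
# Addition laws valid on explicit charts

Three triples of expressions in the coordinates of two points which, wherever they make sense, are
proportional to the sum: Mathlib's `addXYZ`, the law of the secant slope in the affine chart, and
its analogue in the chart at infinity.
-/

set_option autoImplicit false

noncomputable section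

namespace FLTAgent.Reduction.Flat

open WeierstrassCurve
open scoped WeierstrassCurve.Projective

section Laws

variable {R : Type*} [CommRing R] (W : WeierstrassCurve R)

/-- Numerator of the secant slope. -/
def secNum (x₁ y₁ x₂ : R) : R :=
  x₁ ^ 2 + x₁ * x₂ + x₂ ^ 2 + W.a₂ * (x₁ + x₂) + W.a₄ - W.a₁ * y₁

/-- Denominator of the secant slope. -/
def secDen (y₁ x₂ y₂ : R) : R := y₁ + y₂ + W.a₁ * x₂ + W.a₃

/-- The sum computed with slope `n / d`. -/
def affLaw (x₁ y₁ x₂ n d : R) : Fin 3 → R :=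
  let M := n ^ 2 + W.a₁ * n * d - (W.a₂ + x₁ + x₂) * d ^ 2
  ![d * M, -(n * (M - x₁ * d ^ 2) + y₁ * d ^ 3) - W.a₁ * (d * M) - W.a₃ * d ^ 3, d ^ 3]

/-- The equation in the chart `Y = 1`. -/
def infEq (u w : R) : R :=
  w + W.a₁ * u * w + W.a₃ * w ^ 2
    - (u ^ 3 + W.a₂ * u ^ 2 * w + W.a₄ * u * w ^ 2 + W.a₆ * w ^ 3)

/-- The coefficient of `u₁ - u₂` in `infEq u₁ w₁ - infEq u₂ w₂`. -/
def infA (u₁ w₁ u₂ : R) : R :=
  W.a₁ * w₁ - (u₁ ^ 2 + u₁ * u₂ + u₂ ^ 2) - W.a₂ * (u₁ + u₂) * w₁ - W.a₄ * w₁ ^ 2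

/-- The coefficient of `w₁ - w₂` in `infEq u₁ w₁ - infEq u₂ w₂`. -/
def infB (w₁ u₂ w₂ : R) : R :=
  1 + W.a₁ * u₂ + W.a₃ * (w₁ + w₂) - W.a₂ * u₂ ^ 2 - W.a₄ * u₂ * (w₁ + w₂)
    - W.a₆ * (w₁ ^ 2 + w₁ * w₂ + w₂ ^ 2)

/-- The leading coefficient of the cubic along the secant. -/
def infLead (a b : R) : R :=
  b ^ 3 - W.a₂ * a * b ^ 2 + W.a₄ * a ^ 2 * b - W.a₆ * a ^ 3

/-- The sum computed with the line through `(u₁, w₁)` of direction `(b, -a)`. -/
def infLaw (u₁ w₁ u₂ a b : R) : Fin 3 → R :=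
  let c := a * u₁ + b * w₁
  let C₃ := infLead W a b
  let C₂ := -W.a₁ * a * b ^ 2 + W.a₃ * a ^ 2 * b - W.a₂ * c * b ^ 2 + 2 * W.a₄ * a * c * b
    - 3 * W.a₆ * a ^ 2 * c
  let K := C₂ - (u₁ + u₂) * C₃
  ![b * K, -(b * C₃) - W.a₁ * (b * K) - W.a₃ * (c * C₃ - a * K), c * C₃ - a * K]

variable {S : Type*} [CommRing S] (f : R →+* S)

theorem map_secNum (x₁ y₁ x₂ : R) :
    secNum (W.map f) (f x₁) (f y₁) (f x₂) = f (secNum W x₁ y₁ x₂) := by simp [secNum]

theorem map_secDen (y₁ x₂ y₂ : R) :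
    secDen (W.map f) (f y₁) (f x₂) (f y₂) = f (secDen W y₁ x₂ y₂) := by simp [secDen]

theorem map_affLaw (x₁ y₁ x₂ n d : R) :
    affLaw (W.map f) (f x₁) (f y₁) (f x₂) (f n) (f d) = f ∘ affLaw W x₁ y₁ x₂ n d := by
  funext i; fin_cases i <;> simp [affLaw]

theorem map_infA (u₁ w₁ u₂ : R) :
    infA (W.map f) (f u₁) (f w₁) (f u₂) = f (infA W u₁ w₁ u₂) := by simp [infA]

theorem map_infB (w₁ u₂ w₂ : R) :
    infB (W.map f) (f w₁) (f u₂) (f w₂) = f (infB W w₁ u₂ w₂) := by simp [infB]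

theorem map_infLead (a b : R) : infLead (W.map f) (f a) (f b) = f (infLead W a b) := by
  simp [infLead]

theorem map_infLaw (u₁ w₁ u₂ a b : R) :
    infLaw (W.map f) (f u₁) (f w₁) (f u₂) (f a) (f b) = f ∘ infLaw W u₁ w₁ u₂ a b := by
  funext i; fin_cases i <;> simp [infLaw, infLead, map_ofNat]

end Laws

variable {k : Type*} [Field k] (W : WeierstrassCurve k)

/-- Projective coordinates of a point. -/
def repr : W.toAffine.Point → Fin 3 → k
  | .zero => ![0, 1, 0]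
  | .some x y _ => ![x, y, 1]

@[simp] lemma repr_zero : repr W 0 = ![0, 1, 0] := rfl

@[simp] lemma repr_some {x y : k} (h : W.toAffine.Nonsingular x y) :
    repr W (.some _ _ h) = ![x, y, 1] := rfl

lemma nonsingular_repr (P : W.toAffine.Point) : W.toProjective.Nonsingular (repr W P) := by
  cases P with
  | zero => exact Projective.nonsingular_zero
  | some x y h => exact (Projective.nonsingular_some x y).2 h

lemma toAffine_repr (P : W.toAffine.Point) :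
    Projective.Point.toAffine W.toProjective (repr W P) = P := by
  cases P with
  | zero => exact Projective.Point.toAffine_zero
  | some x y h => exact Projective.Point.toAffine_some ((Projective.nonsingular_some x y).2 h)

/-- A nonsingular triple is proportional to the coordinates of the point it represents. -/
lemma exists_smul_repr_toAffine {V : Fin 3 → k} (hV : W.toProjective.Nonsingular V) :
    ∃ c : k, V = c • repr W (Projective.Point.toAffine W.toProjective V) := by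
  by_cases hz : V 2 = 0
  · obtain ⟨u, hu⟩ := Projective.equiv_zero_of_Z_eq_zero hV hz
    refine ⟨u, ?_⟩
    rw [Projective.Point.toAffine_of_Z_eq_zero hz]
    exact hu.symm
  · obtain ⟨u, hu⟩ := Projective.equiv_some_of_Z_ne_zero hz
    refine ⟨u, ?_⟩
    rw [Projective.Point.toAffine_of_Z_ne_zero hV hz]
    exact hu.symm

variable [DecidableEq k]

/-- Mathlib's addition formula is proportional to the sum of any two points. -/
theorem addXYZ_repr (P Q : W.toAffine.Point) (u v : k) :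
    ∃ c : k, W.toProjective.addXYZ (u • repr W P) (v • repr W Q) = c • repr W (P + Q) := by
  suffices h : ∃ c : k, W.toProjective.addXYZ (repr W P) (repr W Q) = c • repr W (P + Q) by
    obtain ⟨c, hc⟩ := h
    exact ⟨(u * v) ^ 2 * c, by rw [Projective.addXYZ_smul, hc, smul_smul]⟩
  by_cases h : repr W P ≈ repr W Q
  · obtain rfl : P = Q := by
      rw [← toAffine_repr W P, ← toAffine_repr W Q]
      exact Projective.Point.toAffine_of_equiv h
    exact ⟨0, by rw [Projective.addXYZ_self, zero_smul]; simp⟩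
  · have hs := Projective.nonsingular_add (nonsingular_repr W P) (nonsingular_repr W Q)
    obtain ⟨c, hc⟩ := exists_smul_repr_toAffine W hs
    rw [Projective.Point.toAffine_add (nonsingular_repr W P) (nonsingular_repr W Q),
      toAffine_repr, toAffine_repr, Projective.add_of_not_equiv h] at hc
    exact ⟨c, hc⟩

/-! ### The secant slope in the affine chart -/

/-- The secant law in the affine chart. -/
theorem affLaw_repr {x₁ y₁ x₂ y₂ : k} (h₁ : W.toAffine.Nonsingular x₁ y₁)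
    (h₂ : W.toAffine.Nonsingular x₂ y₂) :
    ∃ c : k, affLaw W x₁ y₁ x₂ (secNum W x₁ y₁ x₂) (secDen W y₁ x₂ y₂)
      = c • repr W (.some _ _ h₁ + .some _ _ h₂) := by
  have e₁ := (Affine.equation_iff _ _).1 h₁.1
  have e₂ := (Affine.equation_iff _ _).1 h₂.1
  set n := secNum W x₁ y₁ x₂ with hn
  set d := secDen W y₁ x₂ y₂ with hd
  have hid : n * (x₁ - x₂) = d * (y₁ - y₂) := by
    simp only [hn, hd, secNum, secDen]; linear_combination e₂ - e₁
  by_cases hd0 : d = 0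
  · rcases eq_or_ne n 0 with hn0 | hn0
    · refine ⟨0, ?_⟩
      funext i; fin_cases i <;> simp [affLaw, hd0, hn0]
    · have hx : x₁ = x₂ := by
        rw [hd0, zero_mul, mul_eq_zero] at hid
        exact sub_eq_zero.1 (hid.resolve_left hn0)
      have hy : y₁ = W.toAffine.negY x₂ y₂ := by
        rw [hd, secDen] at hd0; rw [Affine.negY]; linear_combination hd0
      refine ⟨-n ^ 3, ?_⟩
      rw [Affine.Point.add_of_Y_eq hx hy]
      funext i; fin_cases i <;> simp [affLaw, hd0, ← pow_succ']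
  · have hxy : ¬(x₁ = x₂ ∧ y₁ = W.toAffine.negY x₂ y₂) := by
      rintro ⟨-, hy⟩
      apply hd0
      rw [hd, secDen, hy, Affine.negY]; ring
    have hl : W.toAffine.slope x₁ x₂ y₁ y₂ = n / d := by
      by_cases hx : x₁ = x₂
      · have hy : y₁ ≠ W.toAffine.negY x₂ y₂ := fun h => hxy ⟨hx, h⟩
        have hyy : y₁ = y₂ := Affine.Y_eq_of_Y_ne h₁.1 h₂.1 hx hy
        rw [Affine.slope_of_Y_ne hx hy, hn, hd, secNum, secDen, Affine.negY]
        subst hx hyy
        ring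
      · rw [Affine.slope_of_X_ne hx, div_eq_div_iff (sub_ne_zero.2 hx) hd0]
        linear_combination -hid
    refine ⟨d ^ 3, ?_⟩
    rw [Affine.Point.add_some hxy]
    funext i
    fin_cases i <;>
      simp [affLaw, hl, Affine.addX, Affine.addY, Affine.negAddY, Affine.negY] <;>
      field_simp <;> ring

/-! ### The secant in the chart at infinity -/

/-- A point with coordinates `(u : 1 : w)`. -/
def InfChart (P : W.toAffine.Point) (u w : k) : Prop :=
  (P = 0 ∧ u = 0 ∧ w = 0) ∨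
    ∃ x y, ∃ h : W.toAffine.Nonsingular x y, P = .some _ _ h ∧ y ≠ 0 ∧ u = x / y ∧ w = 1 / y

variable {W}

omit [DecidableEq k] in
lemma InfChart.smul_repr {P : W.toAffine.Point} {u w : k} (h : InfChart W P u w) :
    ∃ c : k, c ≠ 0 ∧ c • repr W P = ![u, 1, w] := by
  rcases h with ⟨rfl, rfl, rfl⟩ | ⟨x, y, hn, rfl, hy, rfl, rfl⟩
  · exact ⟨1, one_ne_zero, one_smul _ _⟩
  · refine ⟨y⁻¹, inv_ne_zero hy, ?_⟩
    funext i; fin_cases i <;> simp [repr, hy]
    field_simp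

omit [DecidableEq k] in
lemma InfChart.eq {P : W.toAffine.Point} {u w : k} (h : InfChart W P u w) : infEq W u w = 0 := by
  rcases h with ⟨-, rfl, rfl⟩ | ⟨x, y, hn, -, hy, rfl, rfl⟩
  · simp [infEq]
  · have e := (Affine.equation_iff _ _).1 hn.1
    simp only [infEq]
    field_simp
    linear_combination e

/-- The sum from the line `w = l u + m` through both points, `u₃` being the third root. -/
lemma infLine_repr {P Q : W.toAffine.Point} {u₁ w₁ u₂ w₂ l m u₃ : k}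
    (hP : InfChart W P u₁ w₁) (hQ : InfChart W Q u₂ w₂) (hw₁ : w₁ = l * u₁ + m)
    (hw₂ : w₂ = l * u₂ + m)
    (hC₃ : 1 + W.a₂ * l + W.a₄ * l ^ 2 + W.a₆ * l ^ 3 ≠ 0)
    (hC₂ : W.a₁ * l + W.a₃ * l ^ 2 - W.a₂ * m - 2 * W.a₄ * l * m - 3 * W.a₆ * l ^ 2 * m
      = (1 + W.a₂ * l + W.a₄ * l ^ 2 + W.a₆ * l ^ 3) * (u₁ + u₂ + u₃))
    (htan : u₁ = u₂ → (W.a₁ * w₁ - 3 * u₁ ^ 2 - 2 * W.a₂ * u₁ * w₁ - W.a₄ * w₁ ^ 2)
      + l * (1 + W.a₁ * u₁ + 2 * W.a₃ * w₁ - W.a₂ * u₁ ^ 2 - 2 * W.a₄ * u₁ * w₁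
        - 3 * W.a₆ * w₁ ^ 2) = 0) :
    ∃ c : k, ![u₃, -1 - W.a₁ * u₃ - W.a₃ * (l * u₃ + m), l * u₃ + m] = c • repr W (P + Q) := by
  have g₁ := hP.eq
  have g₂ := hQ.eq
  simp only [infEq, hw₁, hw₂] at g₁ g₂
  set C₃ := 1 + W.a₂ * l + W.a₄ * l ^ 2 + W.a₆ * l ^ 3 with hC₃'
  set C₁ := l + W.a₁ * m + 2 * W.a₃ * l * m - W.a₄ * m ^ 2 - 3 * W.a₆ * l * m ^ 2 with hC₁'
  set C₀ := m + W.a₃ * m ^ 2 - W.a₆ * m ^ 3 with hC₀'
  have E₁ : C₁ + C₃ * (u₁ * u₂ + u₁ * u₃ + u₂ * u₃) = 0 := by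
    by_cases hu : u₁ = u₂
    · subst hu
      have ht := htan rfl
      rw [hw₁] at ht
      simp only [hC₃', hC₁'] at hC₂ ⊢
      linear_combination ht - 2 * u₁ * hC₂
    · have h : (C₁ + C₃ * (u₁ * u₂ + u₁ * u₃ + u₂ * u₃)) * (u₁ - u₂) = 0 := by
        simp only [hC₃', hC₁'] at hC₂ ⊢
        linear_combination g₁ - g₂ - (u₁ ^ 2 - u₂ ^ 2) * hC₂
      exact (mul_eq_zero.1 h).resolve_right (sub_ne_zero.2 hu)
  have E₀ : C₀ = C₃ * (u₁ * u₂ * u₃) := by
    simp only [hC₃', hC₁', hC₀'] at hC₂ E₁ ⊢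
    linear_combination g₁ - u₁ ^ 2 * hC₂ - u₁ * E₁
  set w₃ := l * u₃ + m with hw₃
  have K₁ : C₃ * (w₁ * w₂ * w₃) = m ^ 3 := by
    simp only [hC₃', hC₁', hC₀', hw₁, hw₂, hw₃] at hC₂ E₁ E₀ ⊢
    linear_combination -l * m ^ 2 * hC₂ + l ^ 2 * m * E₁ - l ^ 3 * E₀
  -- a point at the origin of the chart
  have hzero : ∀ {u v : k}, u₁ * u₂ * u₃ = v * 0 → m = 0 →
      C₃ * (u + u₃) = W.a₁ * l + W.a₃ * l ^ 2 → C₃ * (u * u₃) = -l →
      ![u₃, -1 - W.a₁ * u₃ - W.a₃ * w₃, w₃]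
        = (-1 - W.a₁ * u₃ - W.a₃ * w₃) • ![u, 1, l * u] := by
    intro u v _ hm hs hp
    have h0 : u₃ = (-1 - W.a₁ * u₃ - W.a₃ * w₃) * u := by
      refine mul_left_cancel₀ hC₃ ?_
      rw [hw₃, hm]
      linear_combination hs + (W.a₁ + W.a₃ * l) * hp
    have h2 : w₃ = (-1 - W.a₁ * u₃ - W.a₃ * w₃) * (l * u) := by
      rw [mul_left_comm, ← h0, hw₃, hm, add_zero]
    funext i; fin_cases i <;> simp
    · exact h0
    · exact h2
  rcases hP with ⟨rfl, rfl, rfl⟩ | ⟨x₁, y₁, hn₁, rfl, hy₁, hu₁, hv₁⟩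
  · have hm : m = 0 := by linear_combination -hw₁
    obtain ⟨c, -, hc⟩ := hQ.smul_repr
    refine ⟨(-1 - W.a₁ * u₃ - W.a₃ * w₃) * c, ?_⟩
    rw [zero_add Q, ← smul_smul, hc, hzero (u := u₂) (v := 0) (by ring) hm
      (by rw [hm] at hC₂; linear_combination -hC₂)
      (by simp only [hC₁', hm] at E₁; linear_combination E₁), hw₂, hm, add_zero]
  rcases hQ with ⟨rfl, rfl, rfl⟩ | ⟨x₂, y₂, hn₂, rfl, hy₂, hu₂, hv₂⟩
  · have hm : m = 0 := by linear_combination -hw₂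
    obtain ⟨c, -, hc⟩ :=
      InfChart.smul_repr (Or.inr ⟨x₁, y₁, hn₁, rfl, hy₁, hu₁, hv₁⟩ :
        InfChart W (.some _ _ hn₁) u₁ w₁)
    refine ⟨(-1 - W.a₁ * u₃ - W.a₃ * w₃) * c, ?_⟩
    rw [add_zero, ← smul_smul, hc, hzero (u := u₁) (v := 0) (by ring) hm
      (by rw [hm] at hC₂; linear_combination -hC₂)
      (by simp only [hC₁', hm] at E₁; linear_combination E₁), hw₁, hm, add_zero]
  -- two affine points
  have hw₁0 : w₁ ≠ 0 := by rw [hv₁]; exact div_ne_zero one_ne_zero hy₁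
  have hw₂0 : w₂ ≠ 0 := by rw [hv₂]; exact div_ne_zero one_ne_zero hy₂
  have hx₁ : x₁ = u₁ / w₁ := by rw [hu₁, hv₁]; field_simp
  have hx₂ : x₂ = u₂ / w₂ := by rw [hu₂, hv₂]; field_simp
  have hy₁' : y₁ = 1 / w₁ := by rw [hv₁]; field_simp
  have hy₂' : y₂ = 1 / w₂ := by rw [hv₂]; field_simp
  by_cases hm : m = 0
  · -- the line passes through the origin of the chart
    have hw₃0 : w₃ = 0 := by
      rw [hm, zero_pow three_ne_zero, mul_eq_zero, mul_eq_zero, mul_eq_zero] at K₁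
      tauto
    have hl : l ≠ 0 := fun h => hw₁0 (by rw [hw₁, h, hm]; ring)
    have hu₃0 : u₃ = 0 := by
      rw [hw₃, hm, add_zero, mul_eq_zero] at hw₃0
      exact hw₃0.resolve_left hl
    refine ⟨-1, ?_⟩
    rw [Affine.Point.add_of_Y_eq]
    · funext i; fin_cases i <;> simp [hu₃0, hw₃0]
    · rw [hx₁, hx₂, hw₁, hw₂, hm, add_zero, add_zero]
      rw [hw₁, hm, add_zero] at hw₁0
      rw [hw₂, hm, add_zero] at hw₂0
      rw [mul_ne_zero_iff] at hw₁0 hw₂0
      field_simp [hw₁0.2, hw₂0.2]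
    · rw [Affine.negY, hy₁', hy₂', hx₂, hw₁, hw₂, hm, add_zero, add_zero]
      rw [hw₁, hm, add_zero] at hw₁0
      rw [hw₂, hm, add_zero] at hw₂0
      rw [mul_ne_zero_iff] at hw₁0 hw₂0
      have := hw₁0.2
      have := hw₂0.2
      field_simp
      refine mul_left_cancel₀ hC₃ ?_
      simp only [hC₁', hm, hu₃0] at E₁ hC₂
      linear_combination -hC₂ + (W.a₁ + W.a₃ * l) * E₁
  -- a finite slope
  have hline : ∀ {x y u w : k}, w ≠ 0 → x = u / w → y = 1 / w → w = l * u + m →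
      y = -l / m * x + 1 / m := by
    intro x y u w hw hx hy hlw
    rw [hx, hy]; field_simp; linear_combination -hlw
  have hl₁ := hline hw₁0 hx₁ hy₁' hw₁
  have hl₂ := hline hw₂0 hx₂ hy₂' hw₂
  have hslope : ¬(x₁ = x₂ ∧ y₁ = W.toAffine.negY x₂ y₂) ∧
      W.toAffine.slope x₁ x₂ y₁ y₂ = -l / m := by
    by_cases hx : x₁ = x₂
    · have hy : y₁ = y₂ := by rw [hl₁, hl₂, hx]
      have hu : u₁ = u₂ := by rw [hu₁, hu₂, hx, hy]
      have ht := htan hu
      set D := 2 * y₁ + W.a₁ * x₁ + W.a₃ with hD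
      set N := 3 * x₁ ^ 2 + 2 * W.a₂ * x₁ + W.a₄ - W.a₁ * y₁ with hN
      have hND : N * m = -l * D := by
        rw [hw₁] at ht
        have h0 : (3 * u₁ ^ 2 + 2 * W.a₂ * u₁ * w₁ + W.a₄ * w₁ ^ 2 - W.a₁ * w₁) * m
            + l * (2 * w₁ + W.a₁ * u₁ * w₁ + W.a₃ * w₁ ^ 2) = 0 := by
          rw [hw₁]; linear_combination (-(l * u₁ + m)) * ht + 3 * l * g₁
        have hNw : N * w₁ ^ 2
            = 3 * u₁ ^ 2 + 2 * W.a₂ * u₁ * w₁ + W.a₄ * w₁ ^ 2 - W.a₁ * w₁ := by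
          rw [hN, hx₁, hy₁']; field_simp
        have hDw : D * w₁ ^ 2 = 2 * w₁ + W.a₁ * u₁ * w₁ + W.a₃ * w₁ ^ 2 := by
          rw [hD, hx₁, hy₁']; field_simp
        refine mul_left_cancel₀ (pow_ne_zero 2 hw₁0) ?_
        linear_combination h0 + m * hNw + l * hDw
      have hD0 : D ≠ 0 := by
        intro h0
        rw [h0, mul_zero, mul_eq_zero] at hND
        have hN0 := hND.resolve_right hm
        rcases ((Affine.nonsingular_iff _ _).1 hn₁).2 with h | h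
        · exact h (by rw [hN] at hN0; linear_combination -hN0)
        · exact h (by rw [hD] at h0; linear_combination h0)
      have hne : y₁ ≠ W.toAffine.negY x₂ y₂ := fun h => hD0 (by
        rw [← hx, ← hy, Affine.negY] at h; rw [hD]; linear_combination h)
      refine ⟨fun h => hne h.2, ?_⟩
      have hne' : y₁ - W.toAffine.negY x₁ y₁ ≠ 0 := by
        rw [Affine.negY]; intro h; exact hD0 (by rw [hD]; linear_combination h)
      rw [Affine.slope_of_Y_ne hx hne, div_eq_div_iff hne' hm, Affine.negY]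
      rw [hN, hD] at hND
      linear_combination hND
    · refine ⟨fun h => hx h.1, ?_⟩
      rw [Affine.slope_of_X_ne hx, div_eq_iff (sub_ne_zero.2 hx)]
      linear_combination hl₁ - hl₂
  rw [Affine.Point.add_some hslope.1]
  have hw₃0 : w₃ ≠ 0 := by
    intro h0
    rw [h0, mul_zero, mul_zero] at K₁
    exact hm (pow_eq_zero_iff three_ne_zero |>.1 K₁.symm)
  have hX : W.toAffine.addX x₁ x₂ (-l / m) = u₃ / w₃ := by
    have K₂ : C₃ * (u₁ * w₂ * w₃ + w₁ * u₂ * w₃ + w₁ * w₂ * u₃)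
        = m * l ^ 2 - W.a₁ * l * m ^ 2 - W.a₂ * m ^ 3 := by
      simp only [hC₃', hC₁', hC₀', hw₁, hw₂, hw₃] at hC₂ E₁ E₀ ⊢
      linear_combination -m ^ 2 * hC₂ + 2 * l * m * E₁ - 3 * l ^ 2 * E₀
    rw [Affine.addX, hx₁, hx₂]
    field_simp
    refine mul_left_cancel₀ hC₃ (mul_left_cancel₀ hm ?_)
    linear_combination -m ^ 3 * K₂ + (m * l ^ 2 - W.a₁ * l * m ^ 2 - W.a₂ * m ^ 3) * K₁
  refine ⟨w₃, ?_⟩
  have hY : W.toAffine.negAddY x₁ x₂ y₁ (-l / m) = 1 / w₃ := by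
    rw [Affine.negAddY, hX, hl₁]
    rw [hw₃] at hw₃0 ⊢
    field_simp
    ring
  rw [repr_some, hslope.2, Affine.addY, hX, hY, Affine.negY]
  funext i
  fin_cases i <;> simp <;> field_simp

/-- The secant law in the chart at infinity. -/
theorem infLaw_repr {P Q : W.toAffine.Point} {u₁ w₁ u₂ w₂ : k} (hP : InfChart W P u₁ w₁)
    (hQ : InfChart W Q u₂ w₂) (hB : infB W w₁ u₂ w₂ ≠ 0)
    (hC : infLead W (infA W u₁ w₁ u₂) (infB W w₁ u₂ w₂) ≠ 0) :
    ∃ c : k, infLaw W u₁ w₁ u₂ (infA W u₁ w₁ u₂) (infB W w₁ u₂ w₂) = c • repr W (P + Q) := by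
  set a := infA W u₁ w₁ u₂ with ha
  set b := infB W w₁ u₂ w₂ with hb
  have hab : a * (u₁ - u₂) + b * (w₁ - w₂) = 0 := by
    have g₁ := hP.eq
    have g₂ := hQ.eq
    simp only [infEq] at g₁ g₂
    simp only [ha, hb, infA, infB]
    linear_combination g₁ - g₂
  set l := -a / b with hl
  set m := (a * u₁ + b * w₁) / b with hm
  have hw₁ : w₁ = l * u₁ + m := by rw [hl, hm]; field_simp; ring
  have hw₂ : w₂ = l * u₂ + m := by rw [hl, hm]; field_simp; linear_combination -hab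
  set C₃ := infLead W a b with hC₃
  set C₂ := -W.a₁ * a * b ^ 2 + W.a₃ * a ^ 2 * b - W.a₂ * (a * u₁ + b * w₁) * b ^ 2
    + 2 * W.a₄ * a * (a * u₁ + b * w₁) * b - 3 * W.a₆ * a ^ 2 * (a * u₁ + b * w₁) with hC₂
  set u₃ := C₂ / C₃ - u₁ - u₂ with hu₃
  have h3 : 1 + W.a₂ * l + W.a₄ * l ^ 2 + W.a₆ * l ^ 3 = C₃ / b ^ 3 := by
    rw [hl, hC₃, infLead]; field_simp; ring
  have h2 : W.a₁ * l + W.a₃ * l ^ 2 - W.a₂ * m - 2 * W.a₄ * l * m - 3 * W.a₆ * l ^ 2 * m
      = C₂ / b ^ 3 := by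
    rw [hl, hm, hC₂]; field_simp; ring
  obtain ⟨c, hc⟩ := infLine_repr (l := l) (m := m) (u₃ := u₃) hP hQ hw₁ hw₂
    (by rw [h3]; exact div_ne_zero hC (pow_ne_zero 3 hB))
    (by rw [h3, h2, hu₃]; field_simp; ring)
    (fun hu => by
      subst hu
      have hw : w₁ = w₂ := by
        rw [sub_self, mul_zero, zero_add, mul_eq_zero] at hab
        exact sub_eq_zero.1 (hab.resolve_left hB)
      subst hw
      rw [hl]
      field_simp
      simp only [ha, hb, infA, infB]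
      ring)
  refine ⟨b * C₃ * c, ?_⟩
  rw [← smul_smul, ← hc]
  funext i
  fin_cases i <;> simp [infLaw, ← hC₃, hu₃, hl, hm] <;> field_simp <;> ring

end FLTAgent.Reduction.Flat
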