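import Fermat.Agent.Reduction.Flat.Generators
import Fermat.Agent.Reduction.GoodPrime

/-!
# Sums and opposites of points given by functions in an algebra are given by functions in it
-/

set_option autoImplicit false

noncomputable section

namespace FLTAgent.Reduction.Flat

open WeierstrassCurve IsLocalRing FLTAgent.FlatModel FLTAgent.Frobenius
open scoped WeierstrassCurve.Projective

variable {W : WeierstrassCurve ℤ} {A : ValuationSubring Qbar} {l : ℕ} [Fact l.Prime] {E : ℕ}
  {S T : Type} [AddCommGroup S] [MulAction Γℚ T]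
  {B : Subalgebra ↥(GaloisRep.ratLocalizedAt l) (T → Qbar)} {t : T}

/-- Evaluation of a regular function. -/
def evR (t s : T) : regularRing A B t →+* Qbar :=
  (Pi.evalRingHom (fun _ : T => Qbar) s).comp (regularRing A B t).subtype

omit [Fact l.Prime] [MulAction Γℚ T] in
@[simp] lemma evR_apply (s : T) (f : regularRing A B t) : evR t s f = f.1 s := rfl

lemma regular_mem (hA : A.LiesOverPrime l) (hB : B ≤ intFun l T) (f : regularRing A B t) :
    f.1 t ∈ A := by
  obtain ⟨b, hb, hbt, hbf⟩ := f.2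
  have h := v_le_one (A := A) (mem_of_isIntegral_ratLocalizedAt hA ((mem_intFun.mp (hB hbf)).2 t))
  rw [Pi.mul_apply, map_mul, hbt, one_mul] at h
  exact mem_of_v_le_one h

/-- The residue at `t` of a regular function. -/
def redR (hA : A.LiesOverPrime l) (hB : B ≤ intFun l T) :
    regularRing A B t →+* ResidueField A :=
  (residue A).comp ((evR t t).codRestrict A.toSubring fun f => regular_mem hA hB f)

variable {hA : A.LiesOverPrime l} {hB : B ≤ intFun l T}

lemma redR_ne_zero_iff {f : regularRing A B t} :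
    redR hA hB f ≠ 0 ↔ A.valuation (f.1 t) = 1 :=
  residue_ne_zero_iff_v_eq_one

lemma redR_eq_zero_iff {f : regularRing A B t} :
    redR hA hB f = 0 ↔ A.valuation (f.1 t) < 1 :=
  residue_eq_zero_iff_v_lt_one

lemma redR_eq_residue {f : regularRing A B t} {x : A} (h : f.1 t = x) :
    redR hA hB f = residue A x :=
  congrArg (residue A) (Subtype.ext h)

omit [Fact l.Prime] [MulAction Γℚ T] in
lemma map_evR (W : WeierstrassCurve ℤ) (s : T) :
    (W.map (Int.castRingHom (regularRing A B t))).map (evR t s) = WQbar W := by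
  rw [WQbar_eq, WeierstrassCurve.map_map]
  congr 1

lemma map_redR (W : WeierstrassCurve ℤ) :
    (W.map (Int.castRingHom (regularRing A B t))).map (redR hA hB)
      = redCurve (integralAt W A) := by
  rw [redCurve_integralAt, WeierstrassCurve.map_map]
  congr 1

variable (ι : S →+ (WQbar W).toAffine.Point) {m : T → S}

omit [Fact l.Prime] [MulAction Γℚ T] in
/-- Coordinates near a point with integral coordinates. -/
theorem exists_affChart (hE0 : 0 < E) (hE : ∀ s, GoodExponent A E (ι s))
    (hm : ∀ e : Deg E, gen ι E e.1 ∘ m ∈ B) {x y : Qbar}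
    {h : (WQbar W).toAffine.Nonsingular x y} (ht : ι (m t) = .some _ _ h) (hx : x ∈ A) :
    ∃ e X Y : regularRing A B t, A.valuation (e.1 t) = 1 ∧ X.1 t = x ∧ Y.1 t = y ∧
      ∀ s, e.1 s ≠ 0 → ∃ hs : (WQbar W).toAffine.Nonsingular (X.1 s) (Y.1 s),
        ι (m s) = .some _ _ hs := by
  set g := fun a b c : ℕ => gen ι E ![a, b, c] ∘ m with hg
  have hgm : ∀ a b c, a + b + c = E + 2 → g a b c ∈ B := fun a b c he =>
    hm ⟨![a, b, c], by simpa using he⟩
  set e := g 0 0 (E + 2) with he
  have hy := y_mem_of_x_mem (integralAt W A) h.1 hx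
  have hd := v_den_affine hE0 hx hy (hE (m t) x y h ht hy)
  have het : e t = 1 / den E ![x, y, 1] := by simp [he, hg, gen, ht, mono]
  have hev : A.valuation (e t) = 1 := by rw [het, map_div₀, map_one, hd, div_one]
  have hreg : ∀ a b c, a + b + c = E + 2 → IsRegularFn A B t (g a b c) := fun a b c h' =>
    isRegularFn_of_mem (hgm a b c h')
  have heR : IsRegularFn A B t e := hreg 0 0 (E + 2) (by simp)
  have hinv := heR.inv hev
  refine ⟨⟨e, heR⟩, ⟨_, (hreg 1 0 (E + 1) (by omega)).mul hinv⟩,
    ⟨_, (hreg 0 1 (E + 1) (by omega)).mul hinv⟩, hev, ?_, ?_, fun s hs => ?_⟩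
  · have hd0 : den E ![x, y, 1] ≠ 0 := fun h0 => by rw [h0, map_zero] at hd; exact zero_ne_one hd
    simp [het, hg, gen, ht, mono]; field_simp
  · have hd0 : den E ![x, y, 1] ≠ 0 := fun h0 => by rw [h0, map_zero] at hd; exact zero_ne_one hd
    simp [het, hg, gen, ht, mono]; field_simp
  · cases hp : ι (m s) with
    | zero => simp [he, hg, gen, hp, ← Affine.Point.zero_def, mono, zero_pow] at hs
    | some x' y' h' =>
      have hd0 : den E ![x', y', 1] ≠ 0 := fun h0 => hs (by simp [he, hg, gen, hp, h0])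
      have e1 : (g 1 0 (E + 1) * fun r => (e r)⁻¹) s = x' := by
        simp [he, hg, gen, hp, mono]; field_simp
      have e2 : (g 0 1 (E + 1) * fun r => (e r)⁻¹) s = y' := by
        simp [he, hg, gen, hp, mono]; field_simp
      refine ⟨by simpa only [e1, e2] using h', ?_⟩
      simp only [Affine.Point.some.injEq]
      exact ⟨e1.symm, e2.symm⟩

omit [Fact l.Prime] [MulAction Γℚ T] in
/-- Coordinates near a point reducing to the origin. -/
theorem exists_infChart (hE0 : 0 < E)
    (hm : ∀ e : Deg E, gen ι E e.1 ∘ m ∈ B) (ht : InOne A (ι (m t))) :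
    ∃ e U Z : regularRing A B t, A.valuation (e.1 t) = 1 ∧ A.valuation (U.1 t) < 1 ∧
      A.valuation (Z.1 t) < 1 ∧
      ∀ s, e.1 s ≠ 0 → InfChart (WQbar W) (ι (m s)) (U.1 s) (Z.1 s) := by
  set g := fun a b c : ℕ => gen ι E ![a, b, c] ∘ m with hg
  have hgm : ∀ a b c, a + b + c = E + 2 → g a b c ∈ B := fun a b c he =>
    hm ⟨![a, b, c], by simpa using he⟩
  set e := g 0 (E + 2) 0 with he
  have hreg : ∀ a b c, a + b + c = E + 2 → IsRegularFn A B t (g a b c) := fun a b c h' =>
    isRegularFn_of_mem (hgm a b c h')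
  have heR : IsRegularFn A B t e := hreg 0 (E + 2) 0 (by simp)
  have hchart : ∀ s, e s ≠ 0 → InfChart (WQbar W) (ι (m s))
      ((g 1 (E + 1) 0 * fun r => (e r)⁻¹) s) ((g 0 (E + 1) 1 * fun r => (e r)⁻¹) s) := by
    intro s hs
    cases hp : ι (m s) with
    | zero =>
      refine Or.inl ⟨rfl, ?_, ?_⟩ <;> simp [hg, gen, hp, ← Affine.Point.zero_def, mono]
    | some x y h =>
      have hd0 : den E ![x, y, 1] ≠ 0 := fun h0 => hs (by simp [he, hg, gen, hp, h0])
      have hy0 : y ≠ 0 := fun h0 => hs (by simp [he, hg, gen, hp, mono, h0, zero_pow])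
      refine Or.inr ⟨x, y, h, rfl, hy0, ?_, ?_⟩ <;>
        simp [he, hg, gen, hp, mono] <;> field_simp <;> ring
  have hev : A.valuation (e t) = 1 := by
    cases hp : ι (m t) with
    | zero => simp [he, hg, gen, hp, ← Affine.Point.zero_def, mono, den, zero_pow, hE0.ne']
    | some x y h =>
      rw [hp] at ht
      obtain ⟨hsq, hXY⟩ := v_y_of_x_not_mem (integralAt W A) h.1 ht
      have hY : 1 < A.valuation y := (one_lt_v_iff.2 ht).trans hXY
      have hd : A.valuation (den E ![x, y, 1]) = A.valuation y ^ (E + 2) := by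
        have h2 : A.valuation (y ^ 2) < A.valuation (y ^ (E + 2)) := by
          rw [map_pow, map_pow]; exact pow_lt_pow_right₀ hY (by omega)
        have h3 : A.valuation (1 - y ^ 2) < A.valuation (y ^ (E + 2)) := by
          refine A.valuation.map_sub_lt ?_ h2
          rw [map_one, map_pow]; exact one_lt_pow₀ hY (by omega)
        rw [show den E ![x, y, 1] = y ^ (E + 2) + (1 - y ^ 2) by simp [den]; ring,
          A.valuation.map_add_eq_of_lt_left h3, map_pow]
      simp only [he, hg, gen, Function.comp_apply, hp, repr_some, map_div₀, hd]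
      have hne : A.valuation y ^ (E + 2) ≠ 0 :=
        pow_ne_zero _ (ne_of_gt (lt_trans zero_lt_one hY))
      rw [div_eq_one_iff_eq hne]
      simp [mono]
  have hinv := heR.inv hev
  have ht0 : e t ≠ 0 := fun h0 => by rw [h0, map_zero] at hev; exact zero_ne_one hev
  refine ⟨⟨e, heR⟩, ⟨_, (hreg 1 (E + 1) 0 (by omega)).mul hinv⟩,
    ⟨_, (hreg 0 (E + 1) 1 (by omega)).mul hinv⟩, hev, ?_, ?_, hchart⟩
  all_goals
    rcases hchart t ht0 with ⟨-, hu, hw⟩ | ⟨x, y, h, hp, hy, hu, hw⟩
    · simp only [hu, hw, map_zero, zero_lt_one]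
    · rw [hp] at ht
      obtain ⟨-, hXY⟩ := v_y_of_x_not_mem (integralAt W A) h.1 ht
      have hX : 1 < A.valuation x := one_lt_v_iff.2 ht
      simp only [hu, hw, map_div₀, map_one]
      first
        | exact (div_lt_one₀ ((lt_trans zero_lt_one hX).trans hXY)).2 hXY
        | exact (div_lt_one₀ ((lt_trans zero_lt_one hX).trans hXY)).2 (hX.trans hXY)

omit [AddCommGroup S] in
/-- A point given by a primitive triple of regular functions has regular generators. -/
theorem gen_comp_regular [AddCommGroup S] (ι : S →+ (WQbar W).toAffine.Point) (hE0 : 0 < E)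
    (hE : ∀ s, GoodExponent A E (ι s)) (V : Fin 3 → regularRing A B t) (e : regularRing A B t)
    (hev : A.valuation (e.1 t) = 1)
    (hV : ∀ s, e.1 s ≠ 0 →
      ∃ c : Qbar, (fun i => (V i).1 s) = c • repr (WQbar W) (ι (m s)))
    (hprim : redR hA hB ∘ V ≠ 0) (d : Deg E) :
    IsRegularFn A B t (gen ι E d.1 ∘ m) := by
  obtain ⟨i, hi⟩ : ∃ i, redR hA hB (V i) ≠ 0 := by
    by_contra! h
    exact hprim (funext h)
  have het : e.1 t ≠ 0 := fun h0 => by rw [h0, map_zero] at hev; exact zero_ne_one hev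
  obtain ⟨c, hc⟩ := hV t het
  obtain ⟨c', hc', hn, hd⟩ := exists_normal W A hE0 (ι (m t)) (hE _)
  have hq : (fun j => (V j).1 t) = (c / c') • (c' • repr (WQbar W) (ι (m t))) := by
    rw [smul_smul, div_mul_cancel₀ _ hc']; exact hc
  set N := c' • repr (WQbar W) (ι (m t)) with hN
  set q := c / c'
  have hqV : ∀ j, (V j).1 t = q * N j := fun j => congrFun hq j
  have hq1 : A.valuation q = 1 := by
    refine le_antisymm ?_ ?_
    · obtain ⟨j, hj⟩ : ∃ j, N j = 1 := by
        rcases hn with ⟨h, -⟩ | ⟨h, -⟩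
        · exact ⟨2, h⟩
        · exact ⟨1, h⟩
      have h := v_le_one (regular_mem hA hB (V j))
      rwa [hqV, hj, mul_one] at h
    · have h := redR_ne_zero_iff.1 hi
      rw [hqV, map_mul] at h
      rw [← h]
      exact mul_le_of_le_one_right' (v_le_one (hn.mem i))
  set D : regularRing A B t := den E V with hD
  have hDs : ∀ s, D.1 s = den E fun i => (V i).1 s := fun s => by
    rw [← evR_apply, hD, map_den]; rfl
  have hDt : A.valuation (D.1 t) = 1 := by
    rw [hDs, hq, den_smul, map_mul, map_pow, hq1, one_pow, one_mul, hd]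
  refine (((mono d.1 V).2).mul (D.2.inv hDt)).congr (e.2.mul D.2)
    (by rw [Pi.mul_apply, map_mul, hev, hDt, one_mul]) fun s hs => ?_
  rw [Pi.mul_apply, mul_ne_zero_iff] at hs
  obtain ⟨c, hc⟩ := hV s hs.1
  have hc0 : c ≠ 0 := by
    rintro rfl
    apply hs.2
    rw [hDs, hc, den_smul, zero_pow (by omega), zero_mul]
  have hM : (mono d.1 V).1 s = mono d.1 fun i => (V i).1 s := by
    rw [← evR_apply s (mono d.1 V), map_mono]; rfl
  rw [Pi.mul_apply, Function.comp_apply, hM, hDs, ← div_eq_mul_inv]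
  exact gen_eq_of_smul ι d.2 hc0 hc

end FLTAgent.Reduction.Flat
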