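import Fermat.Agent.FlatModel.Specialise
import Fermat.Agent.Reduction.Defs

/-!
# Functions regular near a point of a finite Galois set

For an algebra `B` of integral equivariant functions and a point `t`, a function is regular at `t`
if some element of `B` which is a unit at `t` multiplies it into `B`. The regular functions are
closed under inversion of functions which are units at `t`, and a function regular at every point
lies in `B`.
-/

set_option autoImplicit false

noncomputable section

namespace FLTAgent.Reduction.Flat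

open FLTAgent.FlatModel FLTAgent.Frobenius

local notation "Qbar" => AlgebraicClosure ℚ

variable {l : ℕ} {T : Type} (A : ValuationSubring Qbar)
  (B : Subalgebra ↥(GaloisRep.ratLocalizedAt l) (T → Qbar))

/-- Regular at `t`: a multiple by an element of `B` which is a unit at `t` lies in `B`. -/
def IsRegularFn (t : T) (f : T → Qbar) : Prop :=
  ∃ b ∈ B, A.valuation (b t) = 1 ∧ b * f ∈ B

variable {A B} {t : T} {f g : T → Qbar}

theorem isRegularFn_of_mem (h : f ∈ B) : IsRegularFn A B t f :=
  ⟨1, one_mem B, map_one _, by rwa [one_mul]⟩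

theorem IsRegularFn.add (hf : IsRegularFn A B t f) (hg : IsRegularFn A B t g) :
    IsRegularFn A B t (f + g) := by
  obtain ⟨b, hb, hbt, hbf⟩ := hf
  obtain ⟨c, hc, hct, hcg⟩ := hg
  refine ⟨b * c, mul_mem hb hc, by rw [Pi.mul_apply, map_mul, hbt, hct, mul_one], ?_⟩
  rw [show b * c * (f + g) = c * (b * f) + b * (c * g) by ring]
  exact add_mem (mul_mem hc hbf) (mul_mem hb hcg)

theorem IsRegularFn.mul (hf : IsRegularFn A B t f) (hg : IsRegularFn A B t g) :
    IsRegularFn A B t (f * g) := by
  obtain ⟨b, hb, hbt, hbf⟩ := hf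
  obtain ⟨c, hc, hct, hcg⟩ := hg
  refine ⟨b * c, mul_mem hb hc, by rw [Pi.mul_apply, map_mul, hbt, hct, mul_one], ?_⟩
  rw [show b * c * (f * g) = b * f * (c * g) by ring]
  exact mul_mem hbf hcg

theorem IsRegularFn.neg (hf : IsRegularFn A B t f) : IsRegularFn A B t (-f) := by
  obtain ⟨b, hb, hbt, hbf⟩ := hf
  exact ⟨b, hb, hbt, by rw [mul_neg]; exact neg_mem hbf⟩

theorem IsRegularFn.sub (hf : IsRegularFn A B t f) (hg : IsRegularFn A B t g) :
    IsRegularFn A B t (f - g) := by
  rw [sub_eq_add_neg]; exact hf.add hg.neg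

variable (A B) (t) in
/-- The regular functions at `t` form a subring. -/
def regularRing : Subring (T → Qbar) where
  carrier := {f | IsRegularFn A B t f}
  one_mem' := isRegularFn_of_mem (one_mem B)
  zero_mem' := isRegularFn_of_mem (zero_mem B)
  mul_mem' hf hg := hf.mul hg
  add_mem' hf hg := hf.add hg
  neg_mem' hf := hf.neg

@[simp] theorem mem_regularRing : f ∈ regularRing A B t ↔ IsRegularFn A B t f := Iff.rfl

theorem intCast_mem_regularRing (m : ℤ) :
    (fun _ => (m : Qbar)) ∈ regularRing A B t :=
  intCast_mem (regularRing A B t) m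

/-- Inversion of a function which is a unit at `t`. -/
theorem IsRegularFn.inv (hf : IsRegularFn A B t f) (hft : A.valuation (f t) = 1) :
    IsRegularFn A B t (fun s => (f s)⁻¹) := by
  obtain ⟨b, hb, hbt, hbf⟩ := hf
  refine ⟨(b * f) * (b * f), mul_mem hbf hbf, ?_, ?_⟩
  · simp only [Pi.mul_apply, map_mul, hbt, hft, mul_one]
  · convert mul_mem hb hbf using 1
    funext s
    simp only [Pi.mul_apply]
    rcases eq_or_ne (f s) 0 with h | h
    · simp [h]
    · field_simp

/-- Regularity depends only on the values where a unit at `t` does not vanish. -/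
theorem IsRegularFn.congr (hf : IsRegularFn A B t f) {e : T → Qbar}
    (he : IsRegularFn A B t e) (het : A.valuation (e t) = 1)
    (h : ∀ s, e s ≠ 0 → g s = f s) : IsRegularFn A B t g := by
  obtain ⟨b, hb, hbt, hbf⟩ := hf
  obtain ⟨c, hc, hct, hce⟩ := he
  refine ⟨b * (c * e), mul_mem hb hce,
    by simp only [Pi.mul_apply, map_mul, hbt, hct, het, mul_one], ?_⟩
  convert mul_mem hce hbf using 1
  funext s
  simp only [Pi.mul_apply]
  rcases eq_or_ne (e s) 0 with h0 | h0
  · simp [h0]
  · rw [h s h0]; ring

variable [MulAction Γℚ T]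

/-- A function regular at every point lies in `B`. -/
theorem mem_of_isRegularFn [Finite T] [Fact l.Prime] (hA : A.LiesOverPrime l) (hT : IsLevelled T)
    (hB : B ≤ intFun l T) (hf : ∀ t, IsRegularFn A B t f) : f ∈ B := by
  let I : Ideal B :=
    { carrier := {b | (b : T → Qbar) * f ∈ B}
      add_mem' := fun {a b} ha hb => by
        show ((a + b : B) : T → Qbar) * f ∈ B
        rw [AddMemClass.coe_add, add_mul]; exact add_mem ha hb
      zero_mem' := by
        show ((0 : B) : T → Qbar) * f ∈ B
        rw [ZeroMemClass.coe_zero, zero_mul]; exact zero_mem B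
      smul_mem' := fun c x hx => by
        show ((c * x : B) : T → Qbar) * f ∈ B
        rw [MulMemClass.coe_mul, mul_assoc]; exact mul_mem c.2 hx }
  have htop : I = ⊤ := by
    by_contra hne
    obtain ⟨P, hP, hIP⟩ := Ideal.exists_le_maximal I hne
    obtain ⟨t, rfl⟩ := exists_eq_ker_redAt hA hT hB P hP
    obtain ⟨b, hb, hbt, hbf⟩ := hf t
    have h := mem_ker_redAt.1 (hIP (show (⟨b, hb⟩ : B) ∈ I from hbf))
    rw [A.mem_nonunits_iff] at h
    simp only [hbt, lt_self_iff_false] at h
  have h1 : (1 : B) ∈ I := htop ▸ Submodule.mem_top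
  have h2 : ((1 : B) : T → Qbar) * f ∈ B := h1
  rwa [OneMemClass.coe_one, one_mul] at h2

end FLTAgent.Reduction.Flat
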