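import Fermat.Agent.Frobenius.Centre
import Fermat.Prelude.Def_FLTPrelim_Ramification
import Mathlib.RingTheory.IntegralClosure.Algebra.Basic
import Mathlib.FieldTheory.Finiteness
import Mathlib.Algebra.CharP.Algebra
import Mathlib.Data.ZMod.Basic
import Mathlib.Algebra.Algebra.ZMod
import Mathlib.Algebra.Field.ZMod
import Mathlib.RingTheory.LocalRing.ResidueField.Basic

/-!
# Nonzero elements of the residue field of a place of `ℚ̄` are roots of unity
-/

set_option autoImplicit false

noncomputable section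

namespace FLTAgent.Reduction.Flat

open IsLocalRing FLTAgent.Frobenius

local notation "Qbar" => AlgebraicClosure ℚ

variable {A : ValuationSubring Qbar} {l : ℕ}

/-- An integral element of a field of characteristic `l` is zero or a root of unity. -/
lemma exists_pow_eq_one_of_isIntegral (hl : l.Prime) {k : Type*} [Field k] [CharP k l] {a : k}
    (ha : IsIntegral ℤ a) (ha0 : a ≠ 0) : ∃ e : ℕ, 0 < e ∧ a ^ e = 1 := by
  have := Fact.mk hl
  let := ZMod.algebra k l
  have : IsScalarTower ℤ (ZMod l) k := IsScalarTower.of_algebraMap_eq' (RingHom.ext_int _ _)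
  have hint : IsIntegral (ZMod l) a := ha.tower_top
  have : Module.Finite (ZMod l) (Algebra.adjoin (ZMod l) ({a} : Set k)) :=
    Module.Finite.iff_fg.2 hint.fg_adjoin_singleton
  have : Finite (Algebra.adjoin (ZMod l) ({a} : Set k)) := Module.finite_of_finite (ZMod l)
  obtain ⟨i, j, hij, he⟩ := Finite.exists_ne_map_eq_of_infinite fun i : ℕ =>
    (⟨a ^ i, pow_mem (Algebra.self_mem_adjoin_singleton _ a) i⟩ :
      Algebra.adjoin (ZMod l) ({a} : Set k))
  have he' : a ^ i = a ^ j := congrArg Subtype.val he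
  rcases lt_or_gt_of_ne hij with h | h
  · refine ⟨j - i, Nat.sub_pos_of_lt h, mul_left_cancel₀ (pow_ne_zero i ha0) ?_⟩
    rw [← pow_add, Nat.add_sub_of_le h.le, mul_one, he']
  · refine ⟨i - j, Nat.sub_pos_of_lt h, mul_left_cancel₀ (pow_ne_zero j ha0) ?_⟩
    rw [← pow_add, Nat.add_sub_of_le h.le, mul_one, he']

/-- A nonzero residue is a root of unity. -/
theorem exists_pow_eq_one_residue (hA : A.LiesOverPrime l) (hl : l.Prime)
    {a : ResidueField A} (ha : a ≠ 0) : ∃ e : ℕ, 0 < e ∧ a ^ e = 1 := by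
  have hl0 : (l : ResidueField A) = 0 := by
    rw [← map_natCast (residue A) l, residue_eq_zero_iff, ← ValuationSubring.coe_mem_nonunits_iff]
    exact hA
  have : CharP (ResidueField A) l := (CharP.charP_iff_prime_eq_zero hl).2 hl0
  let φ : Zbar →+* A :=
    (integralClosure ℤ Qbar).val.toRingHom.codRestrict A.toSubring
      fun z => mem_of_isIntegral A z.2
  let ψ : Zbar →+* ResidueField A := (residue A).comp φ
  have hint : ∀ z : Zbar, IsIntegral ℤ (ψ z) := fun z =>
    RingHom.IsIntegralElem.map (f := algebraMap ℤ Zbar) (IsIntegralClosure.isIntegral ℤ Qbar z) ψ |> fun h => by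
      rwa [RingHom.ext_int (ψ.comp (algebraMap ℤ Zbar)) (algebraMap ℤ (ResidueField A))] at h
  obtain ⟨x, rfl⟩ := residue_surjective a
  obtain ⟨z, b, hb, hx⟩ := exists_eq_div_of_mem x.2
  have hb0 : ψ b ≠ 0 := by
    rw [mem_centre] at hb
    intro h
    apply hb
    simp only [ψ, RingHom.comp_apply, residue_eq_zero_iff] at h
    exact ValuationSubring.coe_mem_nonunits_iff.2 h
  have hbne : (b : Qbar) ≠ 0 := fun h => hb0 (by
    rw [show b = 0 from Subtype.ext h, map_zero])
  have hzx : φ z = x * φ b := Subtype.ext (by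
    show (z : Qbar) = (x : Qbar) * (b : Qbar)
    rw [hx, div_mul_cancel₀ _ hbne])
  have he : ψ z = residue A x * ψ b := by
    simp only [ψ, RingHom.comp_apply, hzx, map_mul]
  have hz0 : ψ z ≠ 0 := by rw [he]; exact mul_ne_zero ha hb0
  obtain ⟨e₁, he₁, hz⟩ := exists_pow_eq_one_of_isIntegral hl (hint z) hz0
  obtain ⟨e₂, he₂, hb'⟩ := exists_pow_eq_one_of_isIntegral hl (hint b) hb0
  refine ⟨e₁ * e₂, Nat.mul_pos he₁ he₂, ?_⟩
  have h := congrArg (fun w : ResidueField A => w ^ (e₁ * e₂)) he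
  simp only [mul_pow, pow_mul, hz, one_pow] at h
  rw [← pow_mul, ← pow_mul, mul_comm e₁ e₂, pow_mul (ψ b), hb', one_pow, mul_one] at h
  rw [mul_comm]; exact h.symm

/-- A common exponent for finitely many residues. -/
theorem exists_exponent (hA : A.LiesOverPrime l) (hl : l.Prime) {ι : Type*} [Finite ι]
    (a : ι → ResidueField A) : ∃ e : ℕ, 0 < e ∧ ∀ i, a i = 0 ∨ a i ^ e = 1 := by
  classical
  cases nonempty_fintype ι
  have h : ∀ i, ∃ e : ℕ, 0 < e ∧ (a i = 0 ∨ a i ^ e = 1) := fun i => by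
    by_cases h0 : a i = 0
    · exact ⟨1, one_pos, Or.inl h0⟩
    · obtain ⟨e, he, hp⟩ := exists_pow_eq_one_residue hA hl h0
      exact ⟨e, he, Or.inr hp⟩
  choose e he hp using h
  refine ⟨∏ i, e i, Finset.prod_pos fun i _ => he i, fun i => (hp i).imp id fun h1 => ?_⟩
  obtain ⟨c, hc⟩ := Finset.dvd_prod_of_mem e (Finset.mem_univ i)
  rw [hc, pow_mul, h1, one_pow]

end FLTAgent.Reduction.Flat
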