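import Fermat.Agent.Reduction.Flat.AddLaw
import Fermat.Agent.Reduction.Flat.Regular
import Fermat.Agent.Reduction.Flat.ResidueTorsion
import Fermat.Agent.Reduction.IntModel
import Mathlib.FieldTheory.Minpoly.Basic
import Mathlib.Algebra.Polynomial.Splits

/-!
# The ring of functions on a finite group of points at a prime of good reduction

It is generated by the monomials of degree `E + 2` divided by `Y^(E+2) - Y²Z^E + Z^(E+2)`, which is
a unit at every point of the group when the residues of the `y`-coordinates are zero or `E`-th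
roots of unity.
-/

set_option autoImplicit false

noncomputable section

namespace FLTAgent.Reduction.Flat

open WeierstrassCurve IsLocalRing FLTAgent.FlatModel FLTAgent.Frobenius

/-- The denominator. -/
def den {R : Type*} [CommRing R] (E : ℕ) (v : Fin 3 → R) : R :=
  v 1 ^ (E + 2) - v 1 ^ 2 * v 2 ^ E + v 2 ^ (E + 2)

/-- A monomial. -/
def mono {R : Type*} [CommRing R] (e : Fin 3 → ℕ) (v : Fin 3 → R) : R :=
  v 0 ^ e 0 * v 1 ^ e 1 * v 2 ^ e 2

lemma den_smul {R : Type*} [CommRing R] (E : ℕ) (c : R) (v : Fin 3 → R) :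
    den E (c • v) = c ^ (E + 2) * den E v := by
  simp only [den, Pi.smul_apply, smul_eq_mul, mul_pow, pow_add]; ring

lemma mono_smul {R : Type*} [CommRing R] (e : Fin 3 → ℕ) (c : R) (v : Fin 3 → R) :
    mono e (c • v) = c ^ (e 0 + e 1 + e 2) * mono e v := by
  simp only [mono, Pi.smul_apply, smul_eq_mul, mul_pow, pow_add]; ring

lemma map_den {R S : Type*} [CommRing R] [CommRing S] (f : R →+* S) (E : ℕ) (v : Fin 3 → R) :
    f (den E v) = den E (f ∘ v) := by
  simp [den]

lemma map_mono {R S : Type*} [CommRing R] [CommRing S] (f : R →+* S) (e : Fin 3 → ℕ)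
    (v : Fin 3 → R) : f (mono e v) = mono e (f ∘ v) := by
  simp [mono]

/-- The monomials of degree `E + 2`. -/
abbrev Deg (E : ℕ) : Type := {e : Fin 3 → ℕ // e 0 + e 1 + e 2 = E + 2}

variable {W : WeierstrassCurve ℤ} {A : ValuationSubring Qbar} {l : ℕ} {E : ℕ}

lemma repr_smul_galois (σ : Γℚ) (P : (WQbar W).toAffine.Point) :
    repr (WQbar W) (σ • P) = fun i => σ (repr (WQbar W) P i) := by
  cases P with
  | zero =>
    funext i; change ![(0 : Qbar), 1, 0] i = σ (![(0 : Qbar), 1, 0] i)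
    fin_cases i <;> simp
  | some x y h => funext i; rw [smul_some]; fin_cases i <;> simp

/-- A rational number in a valuation ring over `l` lies in `ℤ₍ₗ₎`. -/
lemma mem_ratLocalizedAt_of_mem (hA : A.LiesOverPrime l) (hl : l.Prime) {q : ℚ}
    (hq : (q : Qbar) ∈ A) : q ∈ GaloisRep.ratLocalizedAt l := by
  rw [FlatModel.mem_ratLocalizedAt]
  refine (hl.coprime_iff_not_dvd.2 fun hd => ?_).symm
  have hnum : ¬(l : ℤ) ∣ q.num := fun hn => hl.ne_one <| Nat.eq_one_of_dvd_coprimes q.reduced
    (Int.natCast_dvd.1 hn) hd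
  have h1 := v_intCast_eq_one hA hl hnum
  have h2 : A.valuation ((q.den : ℤ) : Qbar) < 1 :=
    (v_intCast_lt_one_iff hA hl _).2 (Int.natCast_dvd_natCast.2 hd)
  have h3 : (q : Qbar) * ((q.den : ℤ) : Qbar) = (q.num : Qbar) := by
    rw [Rat.cast_def]; push_cast; field_simp
  have h4 := congrArg A.valuation h3
  rw [map_mul, h1] at h4
  exact absurd h4 (ne_of_lt (lt_of_le_of_lt (mul_le_of_le_one_left' (v_le_one hq)) h2))

/-- An element all of whose conjugates lie in `A` is integral over `ℤ₍ₗ₎`. -/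
theorem isIntegral_of_forall_mem (hA : A.LiesOverPrime l) (hl : l.Prime) {x : Qbar}
    (hx : ∀ σ : Γℚ, σ x ∈ A) : IsIntegral (GaloisRep.ratLocalizedAt l) x := by
  have halg : Algebra.IsAlgebraic ℚ Qbar := AlgebraicClosure.isAlgebraic ℚ
  have : IsAlgClosure ℚ Qbar := ⟨inferInstance, halg⟩
  have : Normal ℚ Qbar := IsAlgClosure.normal ℚ Qbar
  have hint : IsIntegral ℚ x := (Algebra.IsIntegral.isIntegral x)
  set P := minpoly ℚ x
  have hsplit : (P.map (algebraMap ℚ Qbar)).Splits := IsAlgClosed.splits _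
  have hcoeff : ∀ i, ((P.coeff i : ℚ) : Qbar) ∈ A := by
    intro i
    have hr : ∀ r ∈ (P.map (algebraMap ℚ Qbar)).roots, r ∈ A := by
      intro r hr
      rw [Polynomial.mem_roots', Polynomial.IsRoot.def, Polynomial.eval_map_algebraMap] at hr
      obtain ⟨σ, hσ⟩ := minpoly.exists_algEquiv_of_root' (hint.isAlgebraic) hr.2
      rw [← hσ]
      exact hx σ
    have h := hsplit.eq_prod_roots
    rw [((minpoly.monic hint).map _).leadingCoeff, Polynomial.C_1, one_mul] at h
    have h2 : ((P.coeff i : ℚ) : Qbar) = (P.map (algebraMap ℚ Qbar)).coeff i := by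
      rw [Polynomial.coeff_map, eq_ratCast]
    rw [h2, h]
    clear h2 h
    generalize (P.map (algebraMap ℚ Qbar)).roots = s at hr
    induction s using Multiset.induction_on generalizing i with
    | empty =>
      rw [Multiset.map_zero, Multiset.prod_zero, Polynomial.coeff_one]
      split
      · exact one_mem A
      · exact zero_mem A
    | cons a s ih =>
      rw [Multiset.map_cons, Multiset.prod_cons, sub_mul, Polynomial.coeff_sub,
        Polynomial.coeff_C_mul]
      refine sub_mem ?_ (mul_mem (hr a (Multiset.mem_cons_self a s))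
        (ih i fun r hr' => hr r (Multiset.mem_cons_of_mem hr')))
      cases i with
      | zero => rw [Polynomial.coeff_X_mul_zero]; exact zero_mem A
      | succ i =>
        rw [Polynomial.coeff_X_mul]
        exact ih i fun r hr' => hr r (Multiset.mem_cons_of_mem hr')
  have hlift : P ∈ Polynomial.lifts (algebraMap (GaloisRep.ratLocalizedAt l) ℚ) :=
    (Polynomial.lifts_iff_coeff_lifts P).2 fun i =>
      ⟨⟨P.coeff i, mem_ratLocalizedAt_of_mem hA hl (hcoeff i)⟩, rfl⟩
  obtain ⟨Q, hQ, -, hQm⟩ := Polynomial.lifts_and_degree_eq_and_monic hlift (minpoly.monic hint)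
  refine ⟨Q, hQm, ?_⟩
  rw [IsScalarTower.algebraMap_eq (GaloisRep.ratLocalizedAt l) ℚ Qbar, ← Polynomial.eval₂_map, hQ,
    ← Polynomial.aeval_def, minpoly.aeval]

/-- A normalised triple: affine and integral, or in the chart at infinity. -/
def IsNormal (A : ValuationSubring Qbar) (v : Fin 3 → Qbar) : Prop :=
  (v 2 = 1 ∧ v 0 ∈ A ∧ v 1 ∈ A) ∨ (v 1 = 1 ∧ A.valuation (v 0) < 1 ∧ A.valuation (v 2) < 1)

lemma IsNormal.mem {v : Fin 3 → Qbar} (h : IsNormal A v) (i : Fin 3) : v i ∈ A := by
  rcases h with ⟨h2, h0, h1⟩ | ⟨h1, h0, h2⟩ <;> fin_cases i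
  · exact h0
  · exact h1
  · exact h2 ▸ one_mem A
  · exact mem_of_v_le_one h0.le
  · exact h1 ▸ one_mem A
  · exact mem_of_v_le_one h2.le

/-- The residues of the `y`-coordinates of the points `P` are zero or `E`-th roots of unity. -/
def GoodExponent (A : ValuationSubring Qbar) (E : ℕ) (P : (WQbar W).toAffine.Point) : Prop :=
  ∀ x y (h : (WQbar W).toAffine.Nonsingular x y), P = .some _ _ h → ∀ hy : y ∈ A,
    residue A ⟨y, hy⟩ = 0 ∨ residue A ⟨y, hy⟩ ^ E = 1

lemma v_den_affine {E : ℕ} (hE0 : 0 < E) {x y : Qbar} (hx : x ∈ A) (hy : y ∈ A)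
    (h : residue A ⟨y, hy⟩ = 0 ∨ residue A ⟨y, hy⟩ ^ E = 1) :
    A.valuation (den E ![x, y, 1]) = 1 := by
  have hd : den E ![x, y, 1] = ((den E ![(⟨x, hx⟩ : A), ⟨y, hy⟩, 1] : A) : Qbar) := by
    simp [den]
  rw [hd]
  refine residue_ne_zero_iff_v_eq_one.1 ?_
  rw [map_den]
  rcases h with h0 | h1
  · simp [den, h0, zero_pow, hE0.ne']
  · simp [den, pow_add, h1]

/-- Every point has normalised coordinates, at which the denominator is a unit. -/
theorem exists_normal (W : WeierstrassCurve ℤ) (A : ValuationSubring Qbar) {E : ℕ} (hE0 : 0 < E)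
    (P : (WQbar W).toAffine.Point) (hP : GoodExponent A E P) :
    ∃ c : Qbar, c ≠ 0 ∧ IsNormal A (c • repr (WQbar W) P) ∧
      A.valuation (den E (c • repr (WQbar W) P)) = 1 := by
  have hunit : ∀ a b : Qbar, a = 1 + b → A.valuation b < 1 → A.valuation a = 1 := by
    intro a b h hb
    rw [h, A.valuation.map_add_eq_of_lt_left (by rwa [map_one]), map_one]
  rcases P with _ | ⟨x, y, h⟩
  · refine ⟨1, one_ne_zero, Or.inr ⟨?_, ?_, ?_⟩, ?_⟩ <;>
      simp [← Affine.Point.zero_def, den, zero_pow, hE0.ne']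
  by_cases hx : x ∈ A
  · have hy := y_mem_of_x_mem (integralAt W A) h.1 hx
    refine ⟨1, one_ne_zero, Or.inl ⟨by simp, by simpa using hx, by simpa using hy⟩, ?_⟩
    rw [one_smul, repr_some]
    exact v_den_affine hE0 hx hy (hP x y h rfl hy)
  · obtain ⟨hsq, hXY⟩ := v_y_of_x_not_mem (integralAt W A) h.1 hx
    have hX : 1 < A.valuation x := one_lt_v_iff.2 hx
    have hy0 : y ≠ 0 := by
      rintro rfl
      rw [map_zero] at hXY
      exact not_lt_zero hXY
    have hu : A.valuation (y⁻¹ * x) < 1 := by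
      rw [map_mul, map_inv₀, mul_comm, ← div_eq_mul_inv]
      exact (div_lt_one₀ (lt_trans (lt_trans zero_lt_one hX) hXY)).2 hXY
    have hw : A.valuation y⁻¹ < 1 := by
      rw [map_inv₀]; exact inv_lt_one_of_one_lt₀ (hX.trans hXY)
    refine ⟨y⁻¹, inv_ne_zero hy0,
      Or.inr ⟨by simp [hy0], by simpa using hu, by simpa using hw⟩, ?_⟩
    refine hunit _ (y⁻¹ ^ (E + 2) - y⁻¹ ^ E) ?_ (A.valuation.map_sub_lt ?_ ?_)
    · simp [den, hy0]; ring
    · exact v_pow_lt_one hw (by omega)
    · exact v_pow_lt_one hw hE0.ne'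

variable {S : Type} [AddCommGroup S] [DistribMulAction Γℚ S]
  (ι : S →+ (WQbar W).toAffine.Point)

/-- The generators. -/
def gen (E : ℕ) (e : Fin 3 → ℕ) (s : S) : Qbar :=
  mono e (repr (WQbar W) (ι s)) / den E (repr (WQbar W) (ι s))

omit [DistribMulAction Γℚ S] in
lemma gen_eq_of_smul {s : S} {e : Fin 3 → ℕ} (he : e 0 + e 1 + e 2 = E + 2) {c : Qbar}
    (hc : c ≠ 0) {v : Fin 3 → Qbar} (hv : v = c • repr (WQbar W) (ι s)) :
    gen ι E e s = mono e v / den E v := by
  rw [hv, mono_smul, den_smul, he, mul_div_mul_left _ _ (pow_ne_zero _ hc), gen]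

variable (hι : ∀ (σ : Γℚ) (s : S), ι (σ • s) = σ • ι s)

include hι in
lemma gen_smul (e : Fin 3 → ℕ) (σ : Γℚ) (s : S) : gen ι E e (σ • s) = σ (gen ι E e s) := by
  rw [gen, hι, repr_smul_galois, gen, map_div₀]
  simp [mono, den]

variable (l) in
/-- The algebra generated by the generators. -/
def coordAlg (E : ℕ) : Subalgebra ↥(GaloisRep.ratLocalizedAt l) (S → Qbar) :=
  Algebra.adjoin _ (Set.range fun e : Deg E => gen ι E e.1)

omit [DistribMulAction Γℚ S] in
lemma gen_mem_coordAlg (e : Deg E) : gen ι E e.1 ∈ coordAlg l ι E :=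
  Algebra.subset_adjoin ⟨e, rfl⟩

variable (hA : A.LiesOverPrime l) (hE0 : 0 < E) (hE : ∀ s, GoodExponent A E (ι s))

include hE0 hE in
omit [DistribMulAction Γℚ S] in
lemma gen_mem (e : Deg E) (s : S) : gen ι E e.1 s ∈ A := by
  obtain ⟨c, hc, hn, hd⟩ := exists_normal W A hE0 (ι s) (hE s)
  rw [gen_eq_of_smul ι e.2 hc rfl]
  refine mem_of_v_le_one ?_
  rw [map_div₀, hd, div_one]
  exact v_le_one (mul_mem (mul_mem (pow_mem (hn.mem 0) _) (pow_mem (hn.mem 1) _))
    (pow_mem (hn.mem 2) _))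

include hι hA hE0 hE in
theorem coordAlg_le_intFun [Fact l.Prime] : coordAlg l ι E ≤ intFun l S := by
  refine Algebra.adjoin_le ?_
  rintro _ ⟨e, rfl⟩
  refine mem_intFun.2 ⟨gen_smul ι hι e.1, fun s =>
    isIntegral_of_forall_mem hA Fact.out fun σ => ?_⟩
  rw [← gen_smul ι hι]
  exact gen_mem ι hE0 hE e _

include hE0 hE in
omit [DistribMulAction Γℚ S] in
theorem coordAlg_separates (hinj : Function.Injective ι) (s s' : S)
    (h : ∀ f : coordAlg l ι E, f.1 s = f.1 s') : s = s' := by
  have hden : ∀ r, den E (repr (WQbar W) (ι r)) ≠ 0 := fun r h0 => by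
    obtain ⟨c, -, -, hd⟩ := exists_normal W A hE0 (ι r) (hE r)
    rw [den_smul, h0, mul_zero, map_zero] at hd
    exact zero_ne_one hd
  have key : ∀ a b c : ℕ, a + b + c = E + 2 → gen ι E ![a, b, c] s = gen ι E ![a, b, c] s' :=
    fun a b c he => h ⟨_, gen_mem_coordAlg ι ⟨![a, b, c], by simpa using he⟩⟩
  have hz := key 0 0 (E + 2) (by simp)
  have h0 : (0 : Qbar) ^ (E + 2) = 0 := zero_pow (by omega)
  apply hinj
  cases hs : ι s with
  | zero =>
    cases hs' : ι s' with
    | zero => rfl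
    | some x' y' h' =>
      exfalso
      have hd := hden s'
      simp [hs'] at hd
      simp [gen, hs, hs', ← Affine.Point.zero_def, mono, h0] at hz
      exact hd hz.symm
  | some x y hxy =>
    cases hs' : ι s' with
    | zero =>
      exfalso
      have hd := hden s
      simp [hs] at hd
      simp [gen, hs, hs', ← Affine.Point.zero_def, mono, h0] at hz
      exact hd hz
    | some x' y' h' =>
      have hd := hden s
      rw [hs, repr_some] at hd
      simp [gen, hs, hs', mono] at hz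
      have hx := key 1 0 (E + 1) (by omega)
      have hy := key 0 1 (E + 1) (by omega)
      simp [gen, hs, hs', mono, ← hz, hd] at hx hy
      simp [hx, hy]

end FLTAgent.Reduction.Flat
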