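import Fermat.Agent.Reduction.Flat.Sum
import Fermat.Agent.Reduction.AtP
import Fermat.Agent.FlatModel.HopfOfFunctions
import Fermat.Agent.FlatModel.Specialise
import Fermat.Agent.Frobenius.Places
import Fermat.Prelude.Def_GaloisRep_Flat

/-!
# Finite flat models at a prime of good reduction

A finite Galois stable group of points of a Weierstrass model with good reduction at `l` is the
group of points of a finite flat cocommutative Hopf algebra over `ℤ₍ₗ₎`. In particular the torsion
is flat at `l`.
-/

set_option autoImplicit false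

noncomputable section

namespace FLTAgent.Reduction.Flat

open WeierstrassCurve IsLocalRing FLTAgent.FlatModel FLTAgent.Frobenius
open WeierstrassCurve.Affine.Point (galoisRepModuleEnd)
open scoped TensorProduct WeierstrassCurve.Affine

variable {W : WeierstrassCurve ℤ} {l : ℕ} [Fact l.Prime]

/-- An exponent for the residues of the `y`-coordinates of finitely many points. -/
theorem exists_goodExponent {A : ValuationSubring Qbar} (hA : A.LiesOverPrime l) {S : Type}
    [Finite S] (P : S → (WQbar W).toAffine.Point) :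
    ∃ E : ℕ, 0 < E ∧ ∀ s, GoodExponent A E (P s) := by
  classical
  let a : S → ResidueField A := fun s =>
    match P s with
    | .zero => 0
    | .some _ y _ => if hy : y ∈ A then residue A ⟨y, hy⟩ else 0
  obtain ⟨E, hE, h⟩ := exists_exponent hA Fact.out a
  refine ⟨E, hE, fun s x y hxy hs hy => ?_⟩
  have ha : a s = residue A ⟨y, hy⟩ := by
    simp only [a, hs, dif_pos hy]
  exact ha ▸ h s

variable {S : Type} [AddCommGroup S] [DistribMulAction Γℚ S]

omit [Fact l.Prime] [AddCommGroup S] [DistribMulAction Γℚ S] in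
lemma range_prodFun_le_intFun [MulAction Γℚ S] {H : Subalgebra ↥(GaloisRep.ratLocalizedAt l)
    (S → Qbar)} (hH : H ≤ intFun l S) : (prodFun H H.val).range ≤ intFun l (S × S) := by
  rintro _ ⟨w, rfl⟩
  induction w using TensorProduct.induction_on with
  | zero => rw [map_zero]; exact zero_mem _
  | tmul f g =>
    refine mem_intFun.2 ⟨fun σ p => ?_, fun p => ?_⟩
    · simp [(mem_intFun.1 (hH f.2)).1 σ p.1, (mem_intFun.1 (hH g.2)).1 σ p.2]
    · show IsIntegral _ (prodFun H H.val (f ⊗ₜ g) p)
      rw [prodFun_tmul]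
      exact ((mem_intFun.1 (hH f.2)).2 p.1).mul ((mem_intFun.1 (hH g.2)).2 p.2)
  | add a b ha hb => rw [map_add]; exact add_mem ha hb

/-- A Galois stable finite group of points at a good prime has a model by functions. -/
theorem nonempty_functionModel (hgood : W.IsGoodPrimeFor l) [Finite S] (hS : IsLevelled S)
    (ι : S →+ (WQbar W).toAffine.Point) (hinj : Function.Injective ι)
    (hι : ∀ (σ : Γℚ) (s : S), ι (σ • s) = σ • ι s) : Nonempty (FunctionModel l S) := by
  obtain ⟨A, hA⟩ := exists_liesOverPrime (Fact.out : l.Prime)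
  obtain ⟨E, hE0, hE⟩ := exists_goodExponent hA ι
  set H := coordAlg l ι E with hH
  have hle : H ≤ intFun l S := coordAlg_le_intFun ι hι hA hE0 hE
  set B := (prodFun H H.val).range with hB
  have hBle : B ≤ intFun l (S × S) := range_prodFun_le_intFun hle
  have hfst : ∀ e : Deg E, gen ι E e.1 ∘ Prod.fst ∈ B := fun e =>
    ⟨(⟨_, gen_mem_coordAlg ι e⟩ : H) ⊗ₜ 1, funext fun p => by simp⟩
  have hsnd : ∀ e : Deg E, gen ι E e.1 ∘ Prod.snd ∈ B := fun e =>
    ⟨(1 : H) ⊗ₜ ⟨_, gen_mem_coordAlg ι e⟩, funext fun p => by simp⟩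
  have hadd : ∀ d : Deg E, gen ι E d.1 ∘ (fun p : S × S => p.1 + p.2) ∈ B := fun d =>
    mem_of_isRegularFn hA (hS.prod hS) hBle fun t =>
      gen_comp_add_regular hA hBle hgood ι hE0 hE hfst hsnd (fun _ => rfl) d
  have hneg : ∀ d : Deg E, gen ι E d.1 ∘ (fun x : S => -x) ∈ H := fun d =>
    mem_of_isRegularFn hA hS hle fun t =>
      gen_comp_neg_regular hA hle ι hE0 hE (m₁ := id) (fun e => gen_mem_coordAlg ι e)
        (fun _ => rfl) d
  have hadd' : H ≤ B.comap (pullback l fun p : S × S => p.1 + p.2) := by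
    refine Algebra.adjoin_le ?_
    rintro _ ⟨d, rfl⟩
    exact hadd d
  have hneg' : H ≤ H.comap (pullback l fun x : S => -x) := by
    refine Algebra.adjoin_le ?_
    rintro _ ⟨d, rfl⟩
    exact hneg d
  exact ⟨⟨H, hle, coordAlg_separates ι hE0 hE hinj, fun f => hadd' f.2, fun f => hneg' f.2⟩⟩

omit [DistribMulAction Γℚ S] in
/-- A finite abelian group with an injective equivariant map to the points of a Weierstrass model
with good reduction at `l` is the group of points of a finite flat Hopf algebra over `ℤ₍ₗ₎`. -/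
theorem exists_finiteFlat_of_embedding (hgood : W.IsGoodPrimeFor l) [Finite S]
    (a : Γℚ → S → S) (ι : S →+ (WQbar W).toAffine.Point) (hinj : Function.Injective ι)
    (hι : ∀ (σ : Γℚ) (s : S), ι (a σ s) = σ • ι s) :
    ∃ (H : Type) (_ : CommRing H) (_ : HopfAlgebra ↥(GaloisRep.ratLocalizedAt l) H),
      Module.Finite ↥(GaloisRep.ratLocalizedAt l) H ∧ Module.Flat ↥(GaloisRep.ratLocalizedAt l) H ∧
      Coalgebra.IsCocomm ↥(GaloisRep.ratLocalizedAt l) H ∧
      ∃ e : WithConv (H →ₐ[↥(GaloisRep.ratLocalizedAt l)] Qbar) ≃ S,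
        (∀ f g, e (f * g) = e f + e g) ∧
        ∀ (σ : Γℚ) (f g : WithConv (H →ₐ[↥(GaloisRep.ratLocalizedAt l)] Qbar)),
          (∀ h : H, g h = σ (f h)) → e g = a σ (e f) := by
  let : DistribMulAction Γℚ S :=
    { smul := a
      one_smul := fun s => hinj (by
        show ι (a 1 s) = ι s
        rw [hι, one_smul])
      mul_smul := fun σ τ s => hinj (by
        show ι (a (σ * τ) s) = ι (a σ (a τ s))
        rw [hι, hι, hι, mul_smul])
      smul_zero := fun σ => hinj (by
        show ι (a σ 0) = ι 0
        rw [hι, map_zero]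
        exact smul_zero (A := ((W.map (Int.castRingHom ℚ))⁄Qbar).Point) σ)
      smul_add := fun σ s t => hinj (by
        show ι (a σ (s + t)) = ι (a σ s + a σ t)
        rw [hι, map_add, map_add, hι, hι]
        exact smul_add (A := ((W.map (Int.castRingHom ℚ))⁄Qbar).Point) σ (ι s) (ι t)) }
  have hS : IsLevelled S := by
    have : Algebra.IsAlgebraic ℚ Qbar := AlgebraicClosure.isAlgebraic ℚ
    obtain ⟨L, hL, hfix⟩ := FLTAgent.Torsion.exists_finiteDimensional_smul_eq (K := Qbar) ℚ
      (W.map (Int.castRingHom ℚ)).toAffine (Set.range ι) (Set.finite_range ι)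
    exact ⟨L, hL, fun σ hσ s => hinj ((hι σ s).trans (hfix σ hσ _ ⟨s, rfl⟩))⟩
  obtain ⟨M⟩ := nonempty_functionModel hgood hS ι hinj hι
  exact M.exists_finiteFlat hS

variable {p : ℕ} [Fact p.Prime] (hcard : Nat.card (TorsQ W p) = p ^ 2)
  (hker : GaloisFactorsThroughFiniteLevel
    (galoisRepModuleEnd (K := AlgebraicClosure ℚ) ℚ (W.map (Int.castRingHom ℚ)) p))

/-- At a prime of good reduction the mod `p` representation is flat. -/
theorem isFlatAt_modRep (hgood : W.IsGoodPrimeFor l) :
    (modRep hcard hker).IsFlatAt l := by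
  have hVfin : Finite (modRep hcard hker).V :=
    Nat.finite_of_card_ne_zero (hcard.trans_ne (pow_ne_zero 2 (Fact.out : p.Prime).ne_zero))
  refine ⟨Finite.of_surjective _ IsLocalRing.residue_surjective, fun I _ => ?_⟩
  rcases Ideal.eq_bot_or_top I with rfl | rfl
  · let q := Submodule.quotEquivOfEqBot
      ((⊥ : Ideal (ZMod p)) • (⊤ : Submodule (ZMod p) (modRep hcard hker).V)) (Submodule.bot_smul _)
    let incl : (modRep hcard hker).V →+ (WQbar W).toAffine.Point :=
      (TorsQ W p).subtype.toAddMonoidHom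
    have : Finite ((modRep hcard hker).V ⧸
        ((⊥ : Ideal (ZMod p)) • (⊤ : Submodule (ZMod p) (modRep hcard hker).V))) :=
      Finite.of_surjective _ (Submodule.Quotient.mk_surjective _)
    refine exists_finiteFlat_of_embedding hgood
      (fun σ => (modRep hcard hker).levelAction ⊥ σ) (incl.comp q.toAddMonoidHom)
      (Subtype.val_injective.comp q.injective) fun σ x => ?_
    obtain ⟨x, rfl⟩ := Submodule.Quotient.mk_surjective _ x
    rfl
  · have : Subsingleton ((modRep hcard hker).V ⧸
        ((⊤ : Ideal (ZMod p)) • (⊤ : Submodule (ZMod p) (modRep hcard hker).V))) :=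
      Submodule.Quotient.subsingleton_iff.2 (Submodule.top_smul _)
    exact exists_finiteFlat_of_embedding hgood
      (fun σ => (modRep hcard hker).levelAction ⊤ σ) 0 (Function.injective_of_subsingleton _)
      fun σ _ => (smul_zero (A := ((W.map (Int.castRingHom ℚ))⁄Qbar).Point) σ).symm

end FLTAgent.Reduction.Flat
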