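import Fermat.Agent.Reduction.Flat.Closed

/-!
# The sum and the opposite
-/

set_option autoImplicit false

noncomputable section

namespace FLTAgent.Reduction.Flat

open WeierstrassCurve IsLocalRing FLTAgent.FlatModel FLTAgent.Frobenius
open scoped WeierstrassCurve.Projective

variable {W : WeierstrassCurve ℤ} {A : ValuationSubring Qbar} {l : ℕ} [Fact l.Prime] {E : ℕ}
  {S T : Type} [AddCommGroup S] [MulAction Γℚ T]
  {B : Subalgebra ↥(GaloisRep.ratLocalizedAt l) (T → Qbar)} {t : T}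

lemma redCurve_Δ_ne_zero (hA : A.LiesOverPrime l) (hgood : W.IsGoodPrimeFor l) :
    (redCurve (integralAt W A)).Δ ≠ 0 := by
  rw [ne_eq, redCurve_Δ_eq_zero_iff, WQbar_Δ,
    v_intCast_eq_one hA (Fact.out : l.Prime) hgood]
  exact lt_irrefl _

variable (hA : A.LiesOverPrime l) (hB : B ≤ intFun l T) (hgood : W.IsGoodPrimeFor l)

include hgood in
lemma nonsingular_red_aff {X Y : regularRing A B t}
    (h : (WQbar W).toAffine.Equation (X.1 t) (Y.1 t)) :
    (redCurve (integralAt W A)).toAffine.Nonsingular (redR hA hB X) (redR hA hB Y) :=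
  (Affine.equation_iff_nonsingular_of_Δ_ne_zero (redCurve_Δ_ne_zero hA hgood)).1
    (equation_red (integralAt W A) (x := ⟨X.1 t, regular_mem hA hB X⟩)
      (y := ⟨Y.1 t, regular_mem hA hB Y⟩) h)

omit [Fact l.Prime] [MulAction Γℚ T] in
lemma ne_zero_of_nonsingular {k : Type*} [Field k] {W : WeierstrassCurve k} {v : Fin 3 → k}
    (h : W.toProjective.Nonsingular v) : v ≠ 0 := by
  rintro rfl
  simpa using ((Projective.nonsingular_iff _).1 h).2

/-- The chord law has a primitive value at `t` when the residues of the triples differ. -/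
lemma addXYZ_red_ne_zero (V₁ V₂ : Fin 3 → regularRing A B t)
    (h₁ : (redCurve (integralAt W A)).toProjective.Nonsingular (redR hA hB ∘ V₁))
    (h₂ : (redCurve (integralAt W A)).toProjective.Nonsingular (redR hA hB ∘ V₂))
    (hne : ¬ redR hA hB ∘ V₁ ≈ redR hA hB ∘ V₂) :
    redR hA hB ∘ (W.map (Int.castRingHom (regularRing A B t))).toProjective.addXYZ V₁ V₂ ≠ 0 := by
  rw [← Projective.map_addXYZ]
  refine ne_zero_of_nonsingular (W := redCurve (integralAt W A)) ?_
  have h := Projective.nonsingular_add h₁ h₂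
  rw [Projective.add_of_not_equiv hne] at h
  convert h using 2
  exact congrArg WeierstrassCurve.toProjective (map_redR W)

omit [Fact l.Prime] [MulAction Γℚ T] in
lemma addXYZ_value (V₁ V₂ : Fin 3 → regularRing A B t) (s : T)
    {P₁ P₂ : (WQbar W).toAffine.Point} {c₁ c₂ : Qbar}
    (h₁ : (fun i => (V₁ i).1 s) = c₁ • repr (WQbar W) P₁)
    (h₂ : (fun i => (V₂ i).1 s) = c₂ • repr (WQbar W) P₂) :
    ∃ c : Qbar, (fun i => ((W.map (Int.castRingHom (regularRing A B t))).toProjective.addXYZ V₁ V₂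
      i).1 s) = c • repr (WQbar W) (P₁ + P₂) := by
  obtain ⟨c, hc⟩ := addXYZ_repr (WQbar W) P₁ P₂ c₁ c₂
  refine ⟨c, ?_⟩
  rw [← hc, ← h₁, ← h₂]
  have h := Projective.map_addXYZ (W' := (W.map (Int.castRingHom (regularRing A B t))).toProjective)
    (evR t s) V₁ V₂
  have hW : ((W.map (Int.castRingHom (regularRing A B t))).toProjective.map (evR t s))
      = (WQbar W).toProjective := congrArg WeierstrassCurve.toProjective (map_evR W s)
  rw [hW] at h
  exact h.symm

variable (ι : S →+ (WQbar W).toAffine.Point) {m₁ m₂ m₃ : T → S}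

include hA hB hgood in
/-- Sums of points with generators in `B` have regular generators. -/
theorem gen_comp_add_regular (hE0 : 0 < E) (hE : ∀ s, GoodExponent A E (ι s))
    (h₁ : ∀ e : Deg E, gen ι E e.1 ∘ m₁ ∈ B) (h₂ : ∀ e : Deg E, gen ι E e.1 ∘ m₂ ∈ B)
    (h₃ : ∀ s, m₃ s = m₁ s + m₂ s) (d : Deg E) : IsRegularFn A B t (gen ι E d.1 ∘ m₃) := by
  suffices h : ∃ (V : Fin 3 → regularRing A B t) (e : regularRing A B t),
      A.valuation (e.1 t) = 1 ∧ (∀ s, e.1 s ≠ 0 → ∃ c : Qbar,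
        (fun i => (V i).1 s) = c • repr (WQbar W) (ι (m₁ s) + ι (m₂ s))) ∧
      redR hA hB ∘ V ≠ 0 by
    obtain ⟨V, e, hev, hV, hprim⟩ := h
    refine gen_comp_regular (hA := hA) (hB := hB) ι hE0 hE V e hev (fun s hs => ?_) hprim d
    rw [h₃, map_add]
    exact hV s hs
  have hne0 : ∀ {e : regularRing A B t}, A.valuation (e.1 t) = 1 → e.1 t ≠ 0 :=
    fun h h0 => by rw [h0, map_zero] at h; exact zero_ne_one h
  have haff : ∀ (m : T → S), (∀ e : Deg E, gen ι E e.1 ∘ m ∈ B) → ¬ InOne A (ι (m t)) →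
      ∃ e X Y : regularRing A B t, A.valuation (e.1 t) = 1 ∧
        (redCurve (integralAt W A)).toAffine.Nonsingular (redR hA hB X) (redR hA hB Y) ∧
        ∀ s, e.1 s ≠ 0 → ∃ hs : (WQbar W).toAffine.Nonsingular (X.1 s) (Y.1 s),
          ι (m s) = .some _ _ hs := by
    intro m hm hn
    rcases hp : ι (m t) with _ | ⟨x, y, h⟩
    · exact absurd (by rw [hp]; trivial) hn
    · rw [hp] at hn
      obtain ⟨e, X, Y, hev, hX, hY, hs⟩ := exists_affChart ι hE0 hE hm hp (not_not.1 hn)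
      exact ⟨e, X, Y, hev, nonsingular_red_aff hA hB hgood (by rw [hX, hY]; exact h.1), hs⟩
  have hinf : ∀ (m : T → S), (∀ e : Deg E, gen ι E e.1 ∘ m ∈ B) → InOne A (ι (m t)) →
      ∃ e U Z : regularRing A B t, A.valuation (e.1 t) = 1 ∧ redR hA hB U = 0 ∧
        redR hA hB Z = 0 ∧ ∀ s, e.1 s ≠ 0 → InfChart (WQbar W) (ι (m s)) (U.1 s) (Z.1 s) := by
    intro m hm hn
    obtain ⟨e, U, Z, hev, hU, hZ, hs⟩ := exists_infChart ι hE0 hm hn
    exact ⟨e, U, Z, hev, redR_eq_zero_iff.2 hU, redR_eq_zero_iff.2 hZ, hs⟩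
  have h010 : ∀ {U Z : regularRing A B t}, redR hA hB U = 0 → redR hA hB Z = 0 →
      redR hA hB ∘ ![U, 1, Z] = ![0, 1, 0] := fun hU hZ => by
    funext i; fin_cases i <;> simp [hU, hZ]
  have hxy1 : ∀ {X Y : regularRing A B t},
      redR hA hB ∘ ![X, Y, 1] = ![redR hA hB X, redR hA hB Y, 1] := fun {X Y} => by
    funext i; fin_cases i <;> simp
  by_cases hn₁ : InOne A (ι (m₁ t)) <;> by_cases hn₂ : InOne A (ι (m₂ t))
  · -- both reduce to the origin
    obtain ⟨e₁, U₁, Z₁, hev₁, hU₁, hZ₁, hs₁⟩ := hinf m₁ h₁ hn₁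
    obtain ⟨e₂, U₂, Z₂, hev₂, hU₂, hZ₂, hs₂⟩ := hinf m₂ h₂ hn₂
    set WR := W.map (Int.castRingHom (regularRing A B t)) with hWR
    set a := infA WR U₁ Z₁ U₂
    set b := infB WR Z₁ U₂ Z₂
    set C := infLead WR a b
    have hred : redR hA hB a = 0 ∧ redR hA hB b = 1 := by
      constructor
      · simp [a, infA, hU₁, hZ₁, hU₂]
      · simp [b, infB, hZ₁, hU₂, hZ₂]
    have hC : redR hA hB C = 1 := by simp [C, infLead, hred.1, hred.2]
    refine ⟨infLaw WR U₁ Z₁ U₂ a b, e₁ * e₂ * (b * C), ?_, fun s hs => ?_, ?_⟩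
    · refine redR_ne_zero_iff (hA := hA) (hB := hB).1 ?_
      rw [map_mul, map_mul, map_mul, hred.2, hC, mul_one, mul_one, mul_ne_zero_iff]
      exact ⟨redR_ne_zero_iff.2 hev₁, redR_ne_zero_iff.2 hev₂⟩
    · simp only [MulMemClass.coe_mul, Pi.mul_apply, mul_ne_zero_iff] at hs
      obtain ⟨⟨he₁, he₂⟩, hb, hC'⟩ := hs
      have eW : WR.map (evR t s) = WQbar W := map_evR W s
      have ea : a.1 s = infA (WQbar W) (U₁.1 s) (Z₁.1 s) (U₂.1 s) := by
        rw [← eW, ← evR_apply, ← evR_apply, ← evR_apply, ← evR_apply, map_infA]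
      have eb : b.1 s = infB (WQbar W) (Z₁.1 s) (U₂.1 s) (Z₂.1 s) := by
        rw [← eW, ← evR_apply, ← evR_apply, ← evR_apply, ← evR_apply, map_infB]
      have eC : C.1 s = infLead (WQbar W) (a.1 s) (b.1 s) := by
        rw [← eW, ← evR_apply, ← evR_apply, ← evR_apply, map_infLead]
      obtain ⟨c, hc⟩ := infLaw_repr (hs₁ s he₁) (hs₂ s he₂) (eb ▸ hb)
        (by rw [← ea, ← eb, ← eC]; exact hC')
      refine ⟨c, ?_⟩
      rw [← hc, ← ea, ← eb, ← eW, ← evR_apply s U₁, ← evR_apply s Z₁, ← evR_apply s U₂,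
        ← evR_apply s a, ← evR_apply s b, map_infLaw]
      rfl
    · intro h
      have := congrFun h 1
      simp [infLaw, infLead, hred.1, hred.2, hU₁, hU₂, hZ₁] at this
  · obtain ⟨e₁, U₁, Z₁, hev₁, hU₁, hZ₁, hs₁⟩ := hinf m₁ h₁ hn₁
    obtain ⟨e₂, X₂, Y₂, hev₂, hns₂, hs₂⟩ := haff m₂ h₂ hn₂
    refine ⟨(W.map (Int.castRingHom (regularRing A B t))).toProjective.addXYZ
      ![U₁, 1, Z₁] ![X₂, Y₂, 1], e₁ * e₂,
      by rw [MulMemClass.coe_mul, Pi.mul_apply, map_mul, hev₁, hev₂, one_mul],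
      fun s hs => ?_, ?_⟩
    · rw [MulMemClass.coe_mul, Pi.mul_apply, mul_ne_zero_iff] at hs
      obtain ⟨c₁, -, hc₁⟩ := (hs₁ s hs.1).smul_repr
      obtain ⟨hs', hp⟩ := hs₂ s hs.2
      refine addXYZ_value ![U₁, 1, Z₁] ![X₂, Y₂, 1] s (c₁ := c₁) (c₂ := 1) ?_ ?_
      · rw [hc₁]; funext i; fin_cases i <;> simp
      · rw [hp, one_smul]; funext i; fin_cases i <;> simp
    · refine addXYZ_red_ne_zero hA hB _ _ ?_ ?_ ?_
      · rw [h010 hU₁ hZ₁]; exact Projective.nonsingular_zero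
      · rw [hxy1]; exact (Projective.nonsingular_some _ _).2 hns₂
      · rw [h010 hU₁ hZ₁, hxy1]
        exact Projective.not_equiv_of_Z_eq_zero_left rfl one_ne_zero
  · obtain ⟨e₁, X₁, Y₁, hev₁, hns₁, hs₁⟩ := haff m₁ h₁ hn₁
    obtain ⟨e₂, U₂, Z₂, hev₂, hU₂, hZ₂, hs₂⟩ := hinf m₂ h₂ hn₂
    refine ⟨(W.map (Int.castRingHom (regularRing A B t))).toProjective.addXYZ
      ![X₁, Y₁, 1] ![U₂, 1, Z₂], e₁ * e₂,
      by rw [MulMemClass.coe_mul, Pi.mul_apply, map_mul, hev₁, hev₂, one_mul],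
      fun s hs => ?_, ?_⟩
    · rw [MulMemClass.coe_mul, Pi.mul_apply, mul_ne_zero_iff] at hs
      obtain ⟨c₂, -, hc₂⟩ := (hs₂ s hs.2).smul_repr
      obtain ⟨hs', hp⟩ := hs₁ s hs.1
      refine addXYZ_value ![X₁, Y₁, 1] ![U₂, 1, Z₂] s (c₁ := 1) (c₂ := c₂) ?_ ?_
      · rw [hp, one_smul]; funext i; fin_cases i <;> simp
      · rw [hc₂]; funext i; fin_cases i <;> simp
    · refine addXYZ_red_ne_zero hA hB _ _ ?_ ?_ ?_
      · rw [hxy1]; exact (Projective.nonsingular_some _ _).2 hns₁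
      · rw [h010 hU₂ hZ₂]; exact Projective.nonsingular_zero
      · rw [h010 hU₂ hZ₂, hxy1]
        exact Projective.not_equiv_of_Z_eq_zero_right one_ne_zero rfl
  · obtain ⟨e₁, X₁, Y₁, hev₁, hns₁, hs₁⟩ := haff m₁ h₁ hn₁
    obtain ⟨e₂, X₂, Y₂, hev₂, hns₂, hs₂⟩ := haff m₂ h₂ hn₂
    by_cases heq : redR hA hB X₁ = redR hA hB X₂ ∧ redR hA hB Y₁ = redR hA hB Y₂
    · set WR := W.map (Int.castRingHom (regularRing A B t)) with hWR
      set n := secNum WR X₁ Y₁ X₂ with hn
      set d' := secDen WR Y₁ X₂ Y₂ with hd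
      refine ⟨affLaw WR X₁ Y₁ X₂ n d', e₁ * e₂,
        by rw [MulMemClass.coe_mul, Pi.mul_apply, map_mul, hev₁, hev₂, one_mul],
        fun s hs => ?_, fun h => ?_⟩
      · rw [MulMemClass.coe_mul, Pi.mul_apply, mul_ne_zero_iff] at hs
        obtain ⟨hs₁', hp₁⟩ := hs₁ s hs.1
        obtain ⟨hs₂', hp₂⟩ := hs₂ s hs.2
        obtain ⟨c, hc⟩ := affLaw_repr (WQbar W) hs₁' hs₂'
        refine ⟨c, ?_⟩
        rw [hp₁, hp₂, ← hc, ← map_evR W s, ← evR_apply s X₁, ← evR_apply s Y₁, ← evR_apply s X₂,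
          ← evR_apply s Y₂, map_secNum, map_secDen, map_affLaw]
        rfl
      · have hmap := map_redR (hA := hA) (hB := hB) (t := t) W
        have h1 := congrFun h 1
        have h2 := congrFun h 2
        simp [affLaw] at h1 h2
        simp [h2] at h1
        have hn' : secNum (redCurve (integralAt W A)) (redR hA hB X₂) (redR hA hB Y₂)
            (redR hA hB X₂) = 0 := by
          have e : redR hA hB n = secNum (redCurve (integralAt W A)) (redR hA hB X₁)
              (redR hA hB Y₁) (redR hA hB X₂) := by rw [← hmap, map_secNum]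
          rw [heq.1, heq.2] at e
          rw [← e]; exact h1
        have hd' : secDen (redCurve (integralAt W A)) (redR hA hB Y₂) (redR hA hB X₂)
            (redR hA hB Y₂) = 0 := by
          have e : redR hA hB d' = secDen (redCurve (integralAt W A)) (redR hA hB Y₁)
              (redR hA hB X₂) (redR hA hB Y₂) := by rw [← hmap, map_secDen]
          rw [heq.2] at e
          rw [← e]; exact h2
        simp only [secNum] at hn'
        simp only [secDen] at hd'
        rcases ((Affine.nonsingular_iff _ _).1 hns₂).2 with h' | h'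
        · exact h' (by linear_combination -hn')
        · exact h' (by linear_combination hd')
    · refine ⟨(W.map (Int.castRingHom (regularRing A B t))).toProjective.addXYZ
        ![X₁, Y₁, 1] ![X₂, Y₂, 1], e₁ * e₂,
        by rw [MulMemClass.coe_mul, Pi.mul_apply, map_mul, hev₁, hev₂, one_mul],
        fun s hs => ?_, ?_⟩
      · rw [MulMemClass.coe_mul, Pi.mul_apply, mul_ne_zero_iff] at hs
        obtain ⟨hs₁', hp₁⟩ := hs₁ s hs.1
        obtain ⟨hs₂', hp₂⟩ := hs₂ s hs.2
        refine addXYZ_value ![X₁, Y₁, 1] ![X₂, Y₂, 1] s (c₁ := 1) (c₂ := 1) ?_ ?_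
        · rw [hp₁, one_smul]; funext i; fin_cases i <;> simp
        · rw [hp₂, one_smul]; funext i; fin_cases i <;> simp
      · refine addXYZ_red_ne_zero hA hB _ _ ?_ ?_ ?_
        · rw [hxy1]; exact (Projective.nonsingular_some _ _).2 hns₁
        · rw [hxy1]; exact (Projective.nonsingular_some _ _).2 hns₂
        · rw [hxy1, hxy1]
          intro h
          have h' := (Projective.equiv_iff_eq_of_Z_eq (P := ![redR hA hB X₁, redR hA hB Y₁, 1])
            (Q := ![redR hA hB X₂, redR hA hB Y₂, 1]) rfl one_ne_zero).1 h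
          exact heq ⟨congrFun h' 0, congrFun h' 1⟩

include hA hB in
/-- Opposites of points with generators in `B` have regular generators. -/
theorem gen_comp_neg_regular (hE0 : 0 < E) (hE : ∀ s, GoodExponent A E (ι s))
    (h₁ : ∀ e : Deg E, gen ι E e.1 ∘ m₁ ∈ B) (h₃ : ∀ s, m₃ s = -m₁ s) (d : Deg E) :
    IsRegularFn A B t (gen ι E d.1 ∘ m₃) := by
  set WR := W.map (Int.castRingHom (regularRing A B t)) with hWR
  have hneg : ∀ (P : (WQbar W).toAffine.Point), ∃ c : Qbar,
      (WQbar W).toProjective.neg (repr (WQbar W) P) = c • repr (WQbar W) (-P) := by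
    intro P
    cases P with
    | zero =>
      refine ⟨-1, ?_⟩
      funext i; fin_cases i <;> simp [← Affine.Point.zero_def, Projective.neg, Projective.negY]
    | some x y h =>
      refine ⟨1, ?_⟩
      rw [Affine.Point.neg_some, one_smul]
      funext i; fin_cases i <;> simp [Projective.neg, Projective.negY, Affine.negY]
  have hval : ∀ (V : Fin 3 → regularRing A B t) (s : T) (c : Qbar),
      (fun i => (V i).1 s) = c • repr (WQbar W) (ι (m₁ s)) →
      ∃ c' : Qbar, (fun i => (WR.toProjective.neg V i).1 s)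
        = c' • repr (WQbar W) (ι (m₃ s)) := by
    intro V s c hV
    obtain ⟨c', hc'⟩ := hneg (ι (m₁ s))
    refine ⟨c * c', ?_⟩
    rw [h₃, map_neg, ← smul_smul, ← hc', ← Projective.neg_smul, ← hV]
    funext i
    rw [← map_evR W s, ← hWR]
    fin_cases i <;> simp [Projective.neg, Projective.negY]
  by_cases hn : InOne A (ι (m₁ t))
  · obtain ⟨e, U, Z, hev, hU, hZ, hs⟩ := exists_infChart ι hE0 h₁ hn
    refine gen_comp_regular (hA := hA) (hB := hB) ι hE0 hE (WR.toProjective.neg ![U, 1, Z]) e hev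
      (fun s hs' => ?_) ?_ d
    · obtain ⟨c, -, hc⟩ := (hs s hs').smul_repr
      refine hval _ s c ?_
      rw [hc]; funext i; fin_cases i <;> simp
    · intro h
      have := congrFun h 1
      simp [Projective.neg, Projective.negY, (redR_eq_zero_iff (hA := hA) (hB := hB)).2 hU,
        (redR_eq_zero_iff (hA := hA) (hB := hB)).2 hZ] at this
  · rcases hp : ι (m₁ t) with _ | ⟨x, y, h⟩
    · exact absurd (by rw [hp]; trivial) hn
    · rw [hp] at hn
      obtain ⟨e, X, Y, hev, -, -, hs⟩ := exists_affChart ι hE0 hE h₁ hp (not_not.1 hn)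
      refine gen_comp_regular (hA := hA) (hB := hB) ι hE0 hE (WR.toProjective.neg ![X, Y, 1]) e hev
        (fun s hs' => ?_) ?_ d
      · obtain ⟨hs'', hq⟩ := hs s hs'
        refine hval _ s 1 ?_
        rw [hq, one_smul]; funext i; fin_cases i <;> simp
      · intro h
        have := congrFun h 2
        simp [Projective.neg] at this

end FLTAgent.Reduction.Flat
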